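import Fermat.Agent.Isog.Nondeg

/-!
# Vélu's isogeny is a homomorphism

The map on points `vMap` (abscissa `vX`, ordinate `vY`), its naturality, its kernel
(`vMap_eq_zero_iff`) and its effect on the invariant differential (`omega_vMap`). The main
results are `vMap_add`, `veluHom` and `ker_veluHom`. Additivity: both sides at a point of the
form `genPoint + Q` have the same invariant differential, so they differ by a constant point,
which reduction identifies (`vMap_genPoint_add`); the identity is moved to arbitrary
transcendental points through the function field.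
-/

set_option autoImplicit false

noncomputable section

open Polynomial WeierstrassCurve WeierstrassCurve.Affine
open scoped WeierstrassCurve.Affine

namespace FLTAgent.Isog

variable {K : Type*} [Field K] [IsAlgClosed K] {L : Type*} [Field L] [Algebra K L]

/-- An element killed by a nonzero polynomial over an algebraically closed field is a constant. -/
theorem exists_const_of_aeval_eq_zero {p : K[X]} (hp : p ≠ 0) {x : L} (h : aeval x p = 0) :
    ∃ c, x = algebraMap K L c := by
  have hi : IsIntegral K x := IsAlgebraic.isIntegral ⟨p, hp, h⟩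
  have hd : (minpoly K x).natDegree = 1 := natDegree_eq_of_degree_eq_some
    (IsAlgClosed.degree_eq_one_of_irreducible K (minpoly.irreducible hi))
  obtain ⟨c, hc⟩ := minpoly.natDegree_eq_one_iff.mp hd
  exact ⟨c, hc.symm⟩

variable {W : Affine K}

theorem exists_eq_toPt_of_xC [DecidableEq K] [DecidableEq L] {x y : L}
    (h : (W⁄L).Nonsingular x y) {c : K} (hx : x = algebraMap K L c) :
    ∃ T₀ : (W⁄K).Point, Point.some x y h = toPt L T₀ := by
  have he := ((W⁄L).equation_iff x y).mp h.1
  simp only [bc_a₁, bc_a₂, bc_a₃, bc_a₄, bc_a₆, hx] at he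
  set e : K := W.a₁ * c + W.a₃
  set g : K := c ^ 3 + W.a₂ * c ^ 2 + W.a₄ * c + W.a₆
  have hy : aeval y (X ^ 2 + Polynomial.C e * X - Polynomial.C g : K[X]) = 0 := by
    simp only [e, g, map_add, map_sub, map_mul, map_pow, aeval_X, aeval_C]
    linear_combination he
  have hne : (X ^ 2 + Polynomial.C e * X - Polynomial.C g : K[X]) ≠ 0 := fun h0 => by
    have := congrArg (fun q : K[X] => q.coeff 2) h0
    simp at this
  obtain ⟨d, rfl⟩ := exists_const_of_aeval_eq_zero hne hy
  subst hx
  have h' : (W⁄K).Nonsingular c d :=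
    (W.baseChange_nonsingular (f := Algebra.ofId K L) (algebraMap K L).injective c d).mp h
  exact ⟨.some c d h', rfl⟩

variable [DecidableEq K] [CharZero K] [W.IsElliptic] {C : AddSubgroup (W⁄K).Point} [Finite C]
  (hC : ∀ P ∈ C, P + P = 0 → P = 0)

section Def

variable (C) in
/-- The ordinate of the image. -/
def vY (x y : L) : L :=
  (psiTwo (W⁄L) x y * vDX W (kerX C) L x - algebraMap K L W.a₁ * vX W (kerX C) L x -
    algebraMap K L W.a₃) / 2

variable [CharZero L]

include hC in
theorem nonsingular_vX_vY {x y : L} (h : (W⁄L).Nonsingular x y)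
    (hx : ∀ r ∈ kerX C, x ≠ algebraMap K L r) :
    ((veluCurve W (kerX C))⁄L).Nonsingular (vX W (kerX C) L x) (vY C x y) := by
  have : (veluCurve W (kerX C)).IsElliptic :=
    ⟨isUnit_iff_ne_zero.mpr (veluCurve_Δ_ne_zero hC)⟩
  refine equation_iff_nonsingular.mp ?_
  let := Classical.decEq L
  have hrel := velu_relation hC (L := L) hx
  rw [← psiTwo_sq h.1] at hrel
  set V := veluCurve W (kerX C)
  have h1 : algebraMap K L W.a₁ = algebraMap K L V.a₁ := rfl
  have h3 : algebraMap K L W.a₃ = algebraMap K L V.a₃ := rfl
  rw [equation_iff, bc_a₁, bc_a₂, bc_a₃, bc_a₄, bc_a₆]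
  simp only [cubicVal, WeierstrassCurve.b₂, WeierstrassCurve.b₄, WeierstrassCurve.b₆, map_add,
    map_mul, map_pow, map_ofNat] at hrel
  simp only [vY, h1, h3]
  field_simp
  linear_combination -hrel

open Classical in
/-- Vélu's isogeny on points. -/
def vMap : (W⁄L).Point → ((veluCurve W (kerX C))⁄L).Point
  | 0 => 0
  | .some x y h =>
    if hx : ∀ r ∈ kerX C, x ≠ algebraMap K L r then .some _ _ (nonsingular_vX_vY hC h hx) else 0

theorem vMap_zero : vMap hC (L := L) 0 = 0 := rfl

theorem vMap_some {x y : L} (h : (W⁄L).Nonsingular x y)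
    (hx : ∀ r ∈ kerX C, x ≠ algebraMap K L r) :
    vMap hC (.some x y h) = .some _ _ (nonsingular_vX_vY hC h hx) := dif_pos hx

theorem vMap_neg (P : (W⁄L).Point) : vMap hC (-P) = -vMap hC P := by
  rcases P with _ | ⟨x, y, h⟩
  · rfl
  rw [Point.neg_some]
  by_cases hx : ∀ r ∈ kerX C, x ≠ algebraMap K L r
  · rw [vMap_some hC _ hx, vMap_some hC _ hx, Point.neg_some]
    simp only [Point.some.injEq, true_and]
    simp only [vY, psiTwo_negY]
    simp only [negY, bc_a₁, bc_a₃]
    show _ = -_ - algebraMap K L W.a₁ * _ - algebraMap K L W.a₃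
    ring
  · unfold vMap
    simp only [dif_neg hx]
    rfl

theorem vMap_naturality {L' : Type*} [Field L'] [Algebra K L'] [CharZero L'] [DecidableEq L]
    [DecidableEq L'] (f : L →ₐ[K] L') (P : (W⁄L).Point) :
    Point.map f (vMap hC P) = vMap hC (Point.map f P) := by
  rcases P with _ | ⟨x, y, h⟩
  · rfl
  have hiff : (∀ r ∈ kerX C, x ≠ algebraMap K L r) ↔ ∀ r ∈ kerX C, f x ≠ algebraMap K L' r :=
    forall₂_congr fun r _ => not_congr
      (by rw [← f.commutes r]; exact f.injective.eq_iff.symm)
  rw [Point.map_some]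
  by_cases hx : ∀ r ∈ kerX C, x ≠ algebraMap K L r
  · rw [vMap_some hC _ hx, vMap_some hC _ (hiff.mp hx), Point.map_some]
    simp only [Point.some.injEq]
    constructor
    · simp only [vX, map_add, map_sum, map_mul, map_pow, map_inv₀, map_sub, AlgHom.commutes]
    · simp only [vY, vX, vDX, psiTwo, bc_a₁, bc_a₃, map_div₀, map_add, map_sum, map_mul, map_neg,
        map_pow, map_inv₀, map_sub, map_one, map_ofNat, AlgHom.commutes]
  · unfold vMap
    simp only [dif_neg hx, dif_neg (mt hiff.mpr hx)]
    rfl

variable [DecidableEq L]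

theorem vMap_toPt (P : (W⁄K).Point) : vMap hC (toPt L P) = toPt L (vMap hC P) :=
  (vMap_naturality hC (Algebra.ofId K L) P).symm

theorem vMap_eq_zero_iff (P : (W⁄L).Point) : vMap hC P = 0 ↔ ∃ R ∈ C, P = toPt L R := by
  rcases P with _ | ⟨x, y, h⟩
  · exact iff_of_true rfl ⟨0, C.zero_mem, (map_zero _).symm⟩
  by_cases hx : ∀ r ∈ kerX C, x ≠ algebraMap K L r
  · rw [vMap_some hC _ hx]
    refine iff_of_false (Point.some_ne_zero _) ?_
    rintro ⟨R, hR, e⟩
    have hR0 : R ≠ 0 := fun h0 => Point.some_ne_zero h (e.trans (by rw [h0, map_zero]))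
    exact hx _ ((mem_kerX C).mpr ⟨R, hR, hR0, rfl⟩) ((congrArg xC e).trans (xC_toPt R))
  · unfold vMap
    simp only [dif_neg hx, true_iff]
    push Not at hx
    obtain ⟨r, hr, hxr⟩ := hx
    obtain ⟨R, hR, hR0, rfl⟩ := (mem_kerX C).mp hr
    have h0 : toPt L R ≠ 0 := fun e => hR0 (toPt_injective L (e.trans (map_zero _).symm))
    rcases eq_or_eq_neg_of_xC_eq (Point.some_ne_zero h) h0
      ((show xC (Point.some x y h) = x from rfl).trans (hxr.trans (xC_toPt R).symm)) with e | e
    · exact ⟨R, hR, e⟩
    · exact ⟨-R, C.neg_mem hR, by rw [e, map_neg]⟩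

theorem offKer_iff_ne_zero (P : (W⁄L).Point) : OffKer C P ↔ vMap hC P ≠ 0 := by
  rw [Ne, vMap_eq_zero_iff hC]
  simp [OffKer]

/-- Vélu's map preserves the invariant differential. -/
theorem omega_vMap (d : Derivation K L L) (P : (W⁄L).Point) :
    omega d (vMap hC P) = omega d P := by
  rcases P with _ | ⟨x, y, h⟩
  · rfl
  have hconst : ∀ c : K, x = algebraMap K L c → omega d (Point.some x y h) = 0 := fun c hc => by
    rw [omega_some, hc, Derivation.map_algebraMap, zero_div]
  by_cases hx : ∀ r ∈ kerX C, x ≠ algebraMap K L r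
  · rw [vMap_some hC _ hx, omega_some, omega_some, derivation_vX]
    have hpsi : psiTwo ((veluCurve W (kerX C))⁄L) (vX W (kerX C) L x) (vY C x y) =
        psiTwo (W⁄L) x y * vDX W (kerX C) L x := by
      simp only [psiTwo, bc_a₁, bc_a₃, vY]
      show 2 * _ + algebraMap K L W.a₁ * _ + algebraMap K L W.a₃ = _
      field_simp
      ring
    rw [hpsi]
    by_cases hD : vDX W (kerX C) L x = 0
    · have hd0 : dPoly W (kerX C) ≠ 0 := by
        intro h0
        have := dPoly_eval_eq W (dLS K) dLS_genX_ne_zero fun r (_ : r ∈ kerX C) => genX_ne_const r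
        rw [h0, map_zero, eq_comm, mul_eq_zero] at this
        rcases this with this | this
        · obtain ⟨α, β, -, hv⟩ := vX_expansion W (kerX C) const_mem_serRing genX_not_mem
          have hA := (serRing K).valuation_le_one
          set z : serRing K := ⟨(genX K)⁻¹,
            ((serRing K).mem_or_inv_mem (genX K)).resolve_left genX_not_mem⟩
          have hz : (serRing K).valuation (z : LSer K) < 1 := by
            show (serRing K).valuation (genX K)⁻¹ < 1
            rw [map_inv₀]
            exact inv_lt_one_of_one_lt₀ (not_le.mp fun h =>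
              genX_not_mem ((serRing K).mem_of_valuation_le_one _ h))
          set q : serRing K := -(⟨_, const_mem_serRing (veluT W (kerX C))⟩ * z) -
            2 * ⟨_, const_mem_serRing (veluW W (kerX C))⟩ * z ^ 2 + z ^ 3 * β with hq
          have e : vDX W (kerX C) (LSer K) (genX K) = 1 + (z : LSer K) * (q : LSer K) := by
            rw [hv, show (q : LSer K) = (serRing K).subtype q from rfl, hq]
            simp only [map_add, map_sub, map_neg, map_mul, map_pow, map_ofNat]
            simp only [z, ValuationSubring.subtype_apply]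
            ring
          rw [e] at this
          have h1 : (serRing K).valuation (1 + (z : LSer K) * (q : LSer K)) = 1 := by
            rw [Valuation.map_add_eq_of_lt_left, map_one]
            rw [map_one, map_mul]
            exact lt_of_le_of_lt (mul_le_of_le_one_right' (hA q)) hz
          rw [this, map_zero] at h1
          exact zero_ne_one h1
        · exact pow_ne_zero 3 (aeval_hPoly_ne_zero fun r _ => genX_ne_const r) this
      have h0 : aeval x (dPoly W (kerX C)) = 0 := by rw [aeval_dPoly W hx, hD, zero_mul]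
      obtain ⟨c, hc⟩ := exists_const_of_aeval_eq_zero hd0 h0
      rw [hD, zero_mul, zero_div, hc, Derivation.map_algebraMap, zero_div]
    · rw [mul_comm (psiTwo (W⁄L) x y), mul_div_mul_left _ _ hD]
  · unfold vMap
    simp only [dif_neg hx]
    push Not at hx
    obtain ⟨r, -, hxr⟩ := hx
    exact (hconst r hxr).symm

section Reduction

variable {A : ValuationSubring L} {hA : ∀ c : K, algebraMap K L c ∈ A}

/-- Vélu's map commutes with reduction. -/
theorem Reduces.vMap {T : (W⁄L).Point} {T₀ : (W⁄K).Point} (h : Reduces A hA T T₀) :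
    Reduces A hA (vMap hC T) (vMap hC T₀) := by
  by_cases hT₀ : FLTAgent.Isog.vMap hC T₀ = 0
  · rw [hT₀]
    refine Reduces.zero_iff.mpr ?_
    by_cases hT : FLTAgent.Isog.vMap hC T = 0
    · exact Or.inl hT
    obtain ⟨R, hR, hR'⟩ := (vMap_eq_zero_iff hC T₀).mp hT₀
    have hR'' : T₀ = R := hR'.trans (by cases R <;> rfl)
    subst hR''
    set U := T - toPt L T₀ with hU
    have hoffT : OffKer C T := (offKer_iff_ne_zero hC T).mpr hT
    have hUoff : OffKer C U := by
      rw [hU, sub_eq_add_neg, ← map_neg]
      exact hoffT.add (C.neg_mem hR)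
    have hUred : U = 0 ∨ xC U ∉ A := by
      have h' : Reduces A hA U 0 := by
        have := Reduces.add h (Reduces.of_const (-T₀))
        rwa [add_neg_cancel, map_neg, ← sub_eq_add_neg] at this
      exact Reduces.zero_iff.mp h'
    have hxU : xC U ∉ A := hUred.resolve_left hUoff.ne_zero
    have hX := vX_add hC hUoff hR
    rw [hU, sub_add_cancel] at hX
    right
    rcases T with _ | ⟨x, y, hxy⟩
    · exact absurd rfl hoffT.ne_zero
    rw [vMap_some hC hxy hoffT.xC_ne]
    show vX W (kerX C) L x ∉ A
    rw [show vX W (kerX C) L x = _ from hX]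
    obtain ⟨α, β, hexp, -⟩ := vX_expansion W (kerX C) hA hxU
    set z : A := ⟨(xC U)⁻¹, (A.mem_or_inv_mem _).resolve_left hxU⟩
    have hz : A.valuation (z : L) < 1 := by
      show A.valuation (xC U)⁻¹ < 1
      rw [map_inv₀]
      exact inv_lt_one_of_one_lt₀ (not_le.mp fun h => hxU (A.mem_of_valuation_le_one _ h))
    set q : A := ⟨_, hA (veluT W (kerX C))⟩ * z + ⟨_, hA (veluW W (kerX C))⟩ * z ^ 2 + z ^ 3 * α
      with hq
    have e : vX W (kerX C) L (xC U) = xC U * (1 + (z : L) * (q : L)) := by
      rw [hexp, show (q : L) = A.subtype q from rfl, hq]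
      simp only [map_add, map_mul, map_pow]
      simp only [z, ValuationSubring.subtype_apply]
      ring
    intro hmem
    rw [← hU, e] at hmem
    have h1 : A.valuation (1 + (z : L) * (q : L)) = 1 := by
      rw [Valuation.map_add_eq_of_lt_left, map_one]
      rw [map_one, map_mul]
      exact lt_of_le_of_lt (mul_le_of_le_one_right' (A.valuation_le_one q)) hz
    have h2 := (A.valuation_le_one_iff _).mpr hmem
    rw [map_mul, h1, mul_one] at h2
    exact hxU (A.mem_of_valuation_le_one _ h2)
  · rcases T₀ with _ | ⟨r, s, hrs⟩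
    · exact absurd rfl hT₀
    obtain ⟨a, b, hn, rfl, ha, hb⟩ := h.coords
    have hr : ∀ j ∈ kerX C, r ≠ algebraMap K K j :=
      ((offKer_iff_ne_zero hC _).mpr hT₀).xC_ne
    have hunit : ∀ j ∈ kerX C, ∃ u : A, (u : L) * ((a : L) - algebraMap K L j) = 1 ∧
        IsLocalRing.residue A u = IsLocalRing.residue A (constHom A hA (r - j)⁻¹) := by
      intro j hj
      have hne : IsLocalRing.residue A (a - constHom A hA j) ≠ 0 := by
        rw [map_sub, ha, ← map_sub, ← map_sub]
        exact (_root_.map_ne_zero ((IsLocalRing.residue A).comp (constHom A hA))).mpr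
          (sub_ne_zero.mpr (hr j hj))
      obtain ⟨u, hu⟩ := isUnit_iff_exists_inv'.mp
        (EllLocal.isUnit_of_residue_ne_zero A hne)
      refine ⟨u, congrArg (A.subtype) hu, ?_⟩
      apply mul_right_cancel₀ hne
      rw [← map_mul, hu, map_one]
      rw [map_sub, ha, ← map_sub, ← map_sub, ← map_mul, ← map_mul,
        inv_mul_cancel₀ (sub_ne_zero.mpr (show r ≠ j from hr j hj)), map_one, map_one]
    have hax : ∀ j ∈ kerX C, (a : L) ≠ algebraMap K L j := fun j hj e => by
      obtain ⟨u, hu, -⟩ := hunit j hj
      rw [e, sub_self, mul_zero] at hu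
      exact zero_ne_one hu
    choose! u hu1 hu2 using hunit
    have hinv : ∀ j ∈ kerX C, ((a : L) - algebraMap K L j)⁻¹ = (u j : L) := fun j hj =>
      inv_eq_of_mul_eq_one_left (hu1 j hj)
    set k := IsLocalRing.residue A
    set κ := constHom A hA
    let X' : A := a + ∑ j ∈ kerX C, (κ (tR W j) * u j + κ (uR W j) * u j ^ 2)
    let D' : A := 1 + ∑ j ∈ kerX C, (-(κ (tR W j) * u j ^ 2) - 2 * κ (uR W j) * u j ^ 3)
    let Y' : A := κ (1 / 2) * ((2 * b + κ W.a₁ * a + κ W.a₃) * D' - κ W.a₁ * X' - κ W.a₃)
    have hX' : (X' : L) = vX W (kerX C) L a := by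
      rw [show (X' : L) = A.subtype X' from rfl]
      simp only [X', vX, map_add, map_sum, map_mul, map_pow]
      refine congrArg _ (Finset.sum_congr rfl fun j hj => ?_)
      rw [hinv j hj]
      rfl
    have hD' : (D' : L) = vDX W (kerX C) L a := by
      rw [show (D' : L) = A.subtype D' from rfl]
      simp only [D', vDX, map_add, map_one, map_sum, map_sub, map_neg, map_mul, map_pow, map_ofNat]
      refine congrArg _ (Finset.sum_congr rfl fun j hj => ?_)
      rw [hinv j hj]
      rfl
    have hY' : (Y' : L) = vY C (a : L) (b : L) := by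
      rw [show (Y' : L) = A.subtype Y' from rfl]
      simp only [Y', vY, psiTwo, bc_a₁, bc_a₃, map_mul, map_sub, map_add, map_ofNat]
      rw [show A.subtype X' = _ from hX', show A.subtype D' = _ from hD']
      have hκ : ∀ c : K, A.subtype (κ c) = algebraMap K L c := fun c => rfl
      simp only [hκ, ValuationSubring.subtype_apply, map_div₀, map_one, map_ofNat]
      field_simp
    have hkX : k X' = k (κ (vX W (kerX C) K r)) := by
      simp only [X', vX, Algebra.algebraMap_self, RingHom.id_apply, map_add, map_sum, map_mul,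
        map_pow, ha]
      refine congrArg _ (Finset.sum_congr rfl fun j hj => ?_)
      rw [hu2 j hj]
    have hkD : k D' = k (κ (vDX W (kerX C) K r)) := by
      simp only [D', vDX, Algebra.algebraMap_self, RingHom.id_apply, map_add, map_one, map_sum,
        map_sub, map_neg, map_mul, map_pow, map_ofNat]
      refine congrArg _ (Finset.sum_congr rfl fun j hj => ?_)
      rw [hu2 j hj]
    have hkY : k Y' = k (κ (vY C r s)) := by
      simp only [Y', vY, psiTwo, bc_a₁, bc_a₃, Algebra.algebraMap_self, RingHom.id_apply, map_add,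
        map_sub, map_mul, map_ofNat, hkX, hkD, ha, hb, div_eq_inv_mul, mul_one]
    rw [vMap_some hC _ hax, vMap_some hC _ hr]
    let V := veluCurve W (kerX C)
    have hn' := nonsingular_vX_vY hC hn hax
    set T' : (V⁄L).Point := Point.some _ _ hn' with hT'
    set T₀' : (V⁄K).Point := Point.some _ _ (nonsingular_vX_vY hC hrs hr) with hT₀'
    have hsome : ∀ x' y' : L, x' = vX W (kerX C) L a → y' = vY C (a : L) (b : L) →
        ∀ h : (V⁄L).Nonsingular x' y', T' = Point.some x' y' h := by
      rintro _ _ rfl rfl h
      rfl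
    have hl : EllLocal.IsLift (W₀ := constModel V A hA) T' X' Y' :=
      ⟨by rw [hX', hY']; exact hn', hsome _ _ hX' hY' _⟩
    obtain ⟨h'', e''⟩ := toPt_some L (nonsingular_vX_vY hC hrs hr)
    have hl₀ : EllLocal.IsLift (W₀ := constModel V A hA) (-(toPt L T₀'))
        (κ (vX W (kerX C) K r))
        ((constModel V A hA).toAffine.negY (κ (vX W (kerX C) K r)) (κ (vY C r s))) :=
      EllLocal.IsLift.neg ⟨h'', e''⟩
    have hns : (EllLocal.redCurve A (constModel V A hA)).Nonsingular (k X') (k Y') := by
      rw [hkX, hkY]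
      have := (map_nonsingular V (f := k.comp κ) (k.comp κ).injective _ _).mpr
        (show V.toAffine.Nonsingular (vX W (kerX C) K r) (vY C r s) from
          nonsingular_vX_vY hC hrs hr)
      exact this
    have := EllLocal.add_inE1 hl hl₀ hns hkX (by
      rw [← EllLocal.redCurve_negY, Affine.negY_negY]; exact hkY)
    rw [Reduces, sub_eq_add_neg]
    exact this

end Reduction

end Def

/-! ### Additivity -/

/-- A point with constant differential is constant. -/
theorem exists_toPt_of_omega_eq_zero {V : Affine K} {P : (V⁄(LSer K)).Point}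
    (h : omega (dLS K) P = 0) : ∃ c, P = toPt (LSer K) c := by
  rcases P with _ | ⟨x, y, hxy⟩
  · exact ⟨0, (map_zero _).symm⟩
  rw [omega_some, div_eq_zero_iff] at h
  obtain ⟨c, hc⟩ : ∃ c, x = algebraMap K (LSer K) c := by
    rcases h with h | h
    · exact eq_const_of_dLS_eq_zero h
    · refine exists_const_of_aeval_eq_zero (p := Polynomial.C 4 * X ^ 3 + Polynomial.C V.b₂ * X ^ 2 +
        Polynomial.C (2 * V.b₄) * X + Polynomial.C V.b₆) (fun h0 => ?_) ?_
      · have := congrArg (fun q : K[X] => q.coeff 3) h0
        simp [coeff_X_pow] at this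
      · have := psiTwo_sq hxy.1
        rw [h, zero_pow two_ne_zero, cubicVal] at this
        simp only [map_add, map_mul, map_pow, aeval_X, aeval_C, map_ofNat]
        linear_combination -this
  exact exists_eq_toPt_of_xC hxy hc

theorem vMap_genPoint_add (Q : (W⁄K).Point) :
    vMap hC (genPoint W + toPt (LSer K) Q) =
      vMap hC (genPoint W) + toPt (LSer K) (vMap hC Q) := by
  set D := vMap hC (genPoint W + toPt (LSer K) Q) - vMap hC (genPoint W) -
    toPt (LSer K) (vMap hC Q) with hD
  have hω : omega (dLS K) D = 0 := by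
    rw [hD, omega_sub, omega_sub, ← vMap_toPt, omega_vMap, omega_vMap, omega_vMap, omega_add]
    ring
  obtain ⟨c, hc⟩ := exists_toPt_of_omega_eq_zero hω
  have h0 := genPoint_reduces (W := W)
  have h1 := Reduces.vMap hC (Reduces.add h0 (Reduces.of_const Q))
  have h2 := (Reduces.vMap hC h0).neg
  have h3 := (Reduces.of_const (A := serRing K) (hA := const_mem_serRing) (vMap hC Q)).neg
  have hred := Reduces.add (Reduces.add h1 h2) h3
  rw [← sub_eq_add_neg, ← sub_eq_add_neg, ← hD, hc, zero_add, vMap_zero, neg_zero, add_zero,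
    add_neg_cancel] at hred
  have := Reduces.unique (Reduces.of_const c) hred
  rw [this, map_zero, hD, sub_sub, sub_eq_zero] at hc
  exact hc

section FunctionField

variable [CharZero L] [DecidableEq L]

instance : CharZero W.FunctionField :=
  charZero_of_injective_algebraMap (algebraMap K W.FunctionField).injective

instance : DecidableEq W.FunctionField := Classical.decEq _

/-- The abscissa in the function field. -/
def ffX : W.FunctionField :=
  algebraMap W.CoordinateRing W.FunctionField (CoordinateRing.mk W (Polynomial.C X))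

/-- The ordinate in the function field. -/
def ffY : W.FunctionField :=
  algebraMap W.CoordinateRing W.FunctionField (CoordinateRing.mk W Polynomial.X)

omit [CharZero K] [W.IsElliptic] [IsAlgClosed K] [DecidableEq K] [CharZero L] [DecidableEq L] in
theorem exists_algHom_functionField {x y : L} (h : (W⁄L).Equation x y)
    (hx : ∀ p : K[X], aeval x p = 0 → p = 0) :
    ∃ f : W.FunctionField →ₐ[K] L, f ffX = x ∧ f ffY = y := by
  rw [equation_iff] at h
  simp only [bc_a₁, bc_a₂, bc_a₃, bc_a₄, bc_a₆] at h
  set i : K[X] →+* L := (aeval x).toRingHom with hi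
  have hev : W.polynomial.eval₂ i y = 0 := by
    simp only [Affine.polynomial, eval₂_add, eval₂_sub, eval₂_mul, eval₂_pow, eval₂_C, eval₂_X,
      hi, AlgHom.toRingHom_eq_coe, RingHom.coe_coe, map_add, map_mul, map_pow, aeval_X, aeval_C]
    linear_combination h
  let g : W.CoordinateRing →ₐ[K] L :=
    { AdjoinRoot.lift i y hev with
      commutes' := fun c => by
        show AdjoinRoot.lift i y hev (algebraMap K W.CoordinateRing c) = _
        rw [show algebraMap K W.CoordinateRing c = AdjoinRoot.of _ (Polynomial.C c) from rfl,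
          AdjoinRoot.lift_of]
        simp [hi] }
  have hgX : g (CoordinateRing.mk W (Polynomial.C X)) = x := by
    show AdjoinRoot.lift i y hev (AdjoinRoot.mk _ (Polynomial.C X)) = x
    rw [AdjoinRoot.mk_C, AdjoinRoot.lift_of]
    simp [hi]
  have hgY : g (CoordinateRing.mk W Polynomial.X) = y := by
    show AdjoinRoot.lift i y hev (AdjoinRoot.mk _ Polynomial.X) = y
    rw [AdjoinRoot.mk_X, AdjoinRoot.lift_root]
  have hginj : Function.Injective g := by
    rw [injective_iff_map_eq_zero]
    intro a ha
    obtain ⟨p, q, rfl⟩ := CoordinateRing.exists_smul_basis_eq a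
    rw [← Algebra.norm_eq_zero_iff_of_basis (CoordinateRing.basis W)]
    apply hx
    have hpq : ∀ (r : K[X]) (b : W.CoordinateRing), g (r • b) = aeval x r * g b := by
      intro r b
      rw [CoordinateRing.smul, map_mul]
      congr 1
      show AdjoinRoot.lift i y hev (AdjoinRoot.mk _ (Polynomial.C r)) = _
      rw [AdjoinRoot.mk_C, AdjoinRoot.lift_of]
      rfl
    rw [map_add, hpq, hpq, map_one, mul_one, hgY] at ha
    rw [CoordinateRing.norm_smul_basis]
    simp only [map_add, map_sub, map_mul, map_pow, aeval_X, aeval_C]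
    linear_combination (aeval x p - aeval x q * (y + algebraMap K L W.a₁ * x + algebraMap K L W.a₃))
      * ha + aeval x q ^ 2 * h
  refine ⟨IsFractionRing.liftAlgHom hginj, ?_, ?_⟩
  · rw [ffX, IsFractionRing.liftAlgHom_apply, IsFractionRing.lift_algebraMap]; exact hgX
  · rw [ffY, IsFractionRing.liftAlgHom_apply, IsFractionRing.lift_algebraMap]; exact hgY

theorem vMap_add_of_transcendental {R : (W⁄L).Point} (hR0 : R ≠ 0)
    (hR : ∀ p : K[X], aeval (xC R) p = 0 → p = 0) (Q : (W⁄K).Point) :
    vMap hC (R + toPt L Q) = vMap hC R + toPt L (vMap hC Q) := by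
  obtain ⟨f₀, hf₀x, hf₀y⟩ := exists_algHom_functionField (equation_gen W)
    fun p hp => by_contra fun hne => aeval_genX_ne_zero _ p rfl hne hp
  have hns : (W⁄W.FunctionField).Nonsingular ffX ffY := by
    rw [← W.baseChange_nonsingular (f := f₀) f₀.injective, hf₀x, hf₀y]
    exact equation_iff_nonsingular.mp (equation_gen W)
  set G : (W⁄W.FunctionField).Point := .some _ _ hns with hG
  have hgen : vMap hC (G + toPt _ Q) = vMap hC G + toPt _ (vMap hC Q) := by
    apply Point.map_injective f₀
    have e : Point.map f₀ G = genPoint W := by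
      rw [hG, Point.map_some]; simp only [hf₀x, hf₀y]; rfl
    rw [map_add, vMap_naturality, vMap_naturality, map_add, e]
    rw [show Point.map f₀ (toPt W.FunctionField Q) = toPt (LSer K) Q from
        Point.map_baseChange f₀ Q,
      show Point.map f₀ (toPt W.FunctionField (vMap hC Q)) = toPt (LSer K) (vMap hC Q) from
        Point.map_baseChange f₀ (vMap hC Q)]
    exact vMap_genPoint_add hC Q
  rcases R with _ | ⟨x, y, hxy⟩
  · exact absurd rfl hR0
  obtain ⟨f, hfx, hfy⟩ := exists_algHom_functionField hxy.1 hR
  have e : Point.map f G = Point.some x y hxy := by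
    rw [hG, Point.map_some]; simp only [hfx, hfy]
  have := congrArg (Point.map f) hgen
  rw [map_add, vMap_naturality, vMap_naturality, map_add, e,
    show Point.map f (toPt W.FunctionField Q) = toPt L Q from Point.map_baseChange f Q,
    show Point.map f (toPt W.FunctionField (vMap hC Q)) = toPt L (vMap hC Q) from
      Point.map_baseChange f (vMap hC Q)] at this
  exact this

end FunctionField

/-- **Vélu's isogeny is additive.** -/
theorem vMap_add (P Q : (W⁄K).Point) :
    vMap hC (P + Q) = vMap hC P + vMap hC Q := by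
  have hd := dLS_xC_add_ne_zero (W := W) P
  have h := vMap_add_of_transcendental hC (R := genPoint W + toPt (LSer K) P)
    (fun e => hd (by rw [e]; exact map_zero (dLS K)))
    (fun p hp => by
      by_contra hne
      obtain ⟨c, hc⟩ := exists_const_of_aeval_eq_zero hne hp
      exact hd (by rw [hc, Derivation.map_algebraMap])) Q
  rw [add_assoc, ← map_add, vMap_genPoint_add, vMap_genPoint_add, add_assoc, add_right_inj,
    ← map_add] at h
  exact toPt_injective (LSer K) h

variable (C) in
/-- Vélu's isogeny. -/
def veluHom : (W⁄K).Point →+ ((veluCurve W (kerX C))⁄K).Point :=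
  AddMonoidHom.mk' (vMap hC) (vMap_add hC)

theorem veluHom_apply (P : (W⁄K).Point) : veluHom C hC P = vMap hC P := rfl

theorem ker_veluHom : (veluHom C hC).ker = C := by
  ext P
  rw [AddMonoidHom.mem_ker, veluHom_apply, vMap_eq_zero_iff hC]
  have hid : ∀ R : (W⁄K).Point, toPt K R = R := fun R => by cases R <;> rfl
  constructor
  · rintro ⟨R, hR, rfl⟩
    rwa [hid R]
  · exact fun h => ⟨P, h, (hid P).symm⟩

end FLTAgent.Isog
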