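import Fermat.Agent.Isog.Velu

/-!
# Vélu's quotient curve is smooth

Main result `veluCurve_Δ_ne_zero`: over an algebraically closed field of characteristic zero the
quotient of an elliptic curve by a finite subgroup of odd order has nonzero discriminant. The
three abscissae of the points of order two have distinct images under `vX`
(`vX_ne_of_cubicVal_eq_zero`, a counting argument on roots), so the cubic of the quotient has
three distinct roots.
-/

set_option autoImplicit false

noncomputable section

open Polynomial WeierstrassCurve WeierstrassCurve.Affine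
open scoped WeierstrassCurve.Affine

namespace FLTAgent.Isog

variable {K : Type*} [Field K] [DecidableEq K] {W : Affine K} (S : Finset K)

theorem degree_hPoly : (hPoly S).degree = S.card := by
  rw [degree_eq_natDegree (hPoly_monic S).ne_zero, natDegree_hPoly]

theorem nPoly_monic (W : Affine K) : (nPoly W S).Monic ∧ (nPoly W S).natDegree = 2 * S.card + 1 := by
  have hm : (X * hPoly S ^ 2).Monic := monic_X.mul ((hPoly_monic S).pow 2)
  have hd : (X * hPoly S ^ 2).natDegree = 2 * S.card + 1 := by
    rw [monic_X.natDegree_mul ((hPoly_monic S).pow 2), natDegree_X,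
      (hPoly_monic S).natDegree_pow, natDegree_hPoly]
    ring
  have hlt : (∑ r ∈ S, (C (tR W r) * (X - C r) + C (uR W r)) * hPoly (S.erase r) ^ 2).degree <
      (X * hPoly S ^ 2).degree := by
    refine lt_of_le_of_lt (degree_sum_le _ _) ?_
    rw [degree_eq_natDegree hm.ne_zero, hd, Finset.sup_lt_iff (WithBot.bot_lt_coe _)]
    intro r hr
    refine lt_of_le_of_lt degree_le_natDegree (Nat.cast_lt.mpr ?_)
    refine lt_of_le_of_lt natDegree_mul_le ?_
    have h1 : (C (tR W r) * (X - C r) + C (uR W r)).natDegree ≤ 1 := by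
      rw [natDegree_add_C]
      exact natDegree_mul_le.trans (by rw [natDegree_C, natDegree_X_sub_C])
    have h2 : (hPoly (S.erase r) ^ 2).natDegree = 2 * (S.card - 1) := by
      rw [(hPoly_monic _).natDegree_pow, natDegree_hPoly, Finset.card_erase_of_mem hr]
    have := Finset.card_pos.mpr ⟨r, hr⟩
    omega
  refine ⟨hm.add_of_left hlt, ?_⟩
  rw [← hd]
  exact natDegree_eq_of_degree_eq (degree_add_eq_left_of_degree_lt hlt)

variable {S}

/-- The three abscissae of the points of order two. -/
theorem exists_three_roots [CharZero K] [IsAlgClosed K] [W.IsElliptic] :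
    ∃ e₁ e₂ e₃ : K, e₁ ≠ e₂ ∧ e₁ ≠ e₃ ∧ e₂ ≠ e₃ ∧ cubicVal W K e₁ = 0 ∧ cubicVal W K e₂ = 0 ∧
      cubicVal W K e₃ = 0 := by
  set f : Cubic K := W.twoTorsionPolynomial with hf
  have ha : f.a ≠ 0 := by
    show (4 : K) ≠ 0
    norm_num
  have hd : f.discr ≠ 0 :=
    W.twoTorsionPolynomial_discr_ne_zero (isUnit_iff_ne_zero.mpr two_ne_zero) W.isUnit_Δ
  obtain ⟨x, y, z, h3⟩ := (Cubic.splits_iff_roots_eq_three (φ := RingHom.id K) ha).mp
    (IsAlgClosed.splits _)
  obtain ⟨hxy, hxz, hyz⟩ := (Cubic.discr_ne_zero_iff_roots_ne ha h3).mp hd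
  have hroot : ∀ v : K, v ∈ (Cubic.map (RingHom.id K) f).roots → cubicVal W K v = 0 := by
    intro v hv
    rw [Cubic.map_roots, mem_roots', IsRoot.def, Polynomial.map_id] at hv
    have := hv.2
    simp only [hf, twoTorsionPolynomial, Cubic.toPoly, eval_add, eval_mul, eval_C, eval_pow,
      eval_X] at this
    simpa [cubicVal] using this
  exact ⟨x, y, z, hxy, hxz, hyz, hroot x (by simp [h3]), hroot y (by simp [h3]),
    hroot z (by simp [h3])⟩

variable {C : AddSubgroup (W⁄K).Point} [Finite C] (hC : ∀ P ∈ C, P + P = 0 → P = 0)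

include hC in
theorem notMem_kerX_of_cubicVal_eq_zero {e : K} (he : cubicVal W K e = 0) : e ∉ kerX C := by
  intro h
  apply uR_ne_zero hC h
  rw [← he]
  simp [cubicVal, uR]

include hC in
theorem vX_ne_of_cubicVal_eq_zero [CharZero K] [IsAlgClosed K] [W.IsElliptic] {e e' : K}
    (he : cubicVal W K e = 0) (he' : cubicVal W K e' = 0) (hne : e ≠ e') :
    vX W (kerX C) K e ≠ vX W (kerX C) K e' := by
  intro heq
  set S := kerX C with hS
  set c := vX W S K e with hc
  have hoffx : ∀ {v : K}, cubicVal W K v = 0 → ∀ r ∈ S, v ≠ algebraMap K K r :=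
    fun {v} hv r hr h => notMem_kerX_of_cubicVal_eq_zero hC hv ((show v = r from h) ▸ hr)
  set y₀ : K := -(W.a₁ * e + W.a₃) / 2 with hy₀
  have heqT : (W⁄K).Equation e y₀ := by
    rw [equation_iff]
    simp only [cubicVal, WeierstrassCurve.b₂, WeierstrassCurve.b₄, WeierstrassCurve.b₆,
      Algebra.algebraMap_self, RingHom.id_apply] at he
    simp only [bc_a₁, bc_a₂, bc_a₃, bc_a₄, bc_a₆, Algebra.algebraMap_self, RingHom.id_apply, hy₀]
    field_simp
    linear_combination -he
  set T : (W⁄K).Point := .some e y₀ (equation_iff_nonsingular.mp heqT) with hT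
  have h2 : T + T = 0 := by
    apply Point.add_of_Y_eq rfl
    simp only [negY, bc_a₁, bc_a₃, Algebra.algebraMap_self, RingHom.id_apply, hy₀]
    field_simp
    ring
  have hoff : OffKer C T := by
    intro R hR h
    have hR0 : R = 0 := hC R hR (toPt_injective K (by rw [map_add, ← h, h2, map_zero]))
    exact Point.some_ne_zero _ (h.trans (by rw [hR0, map_zero]))
  set q : K[X] := nPoly W S - Polynomial.C c * hPoly S ^ 2 with hq
  obtain ⟨hNm, hNd⟩ := nPoly_monic S W
  have hdlt : (Polynomial.C c * hPoly S ^ 2).degree < (nPoly W S).degree := by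
    rw [degree_eq_natDegree hNm.ne_zero, hNd]
    refine lt_of_le_of_lt degree_le_natDegree (Nat.cast_lt.mpr ?_)
    refine lt_of_le_of_lt (natDegree_C_mul_le _ _) ?_
    rw [(hPoly_monic S).natDegree_pow, natDegree_hPoly]
    omega
  have hqd : q.natDegree = 2 * S.card + 1 := by
    rw [← hNd]
    exact natDegree_eq_of_degree_eq (degree_sub_eq_left_of_degree_lt hdlt)
  have hq0 : q ≠ 0 := fun h => by rw [h, natDegree_zero] at hqd; omega
  have hroot : ∀ {v : K}, (∀ r ∈ S, v ≠ algebraMap K K r) → vX W S K v = c → q.IsRoot v := by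
    intro v hv hX
    have := aeval_nPoly W hv
    simp only [coe_aeval_eq_eval, hX] at this
    simp [hq, this]
  -- the translates of `T` are double roots
  set V := ((kerFin C).erase 0).image (fun R => xC (T + toPt K R)) with hV
  have hVG : ∀ v ∈ V, cubicVal W K v ≠ 0 ∧ q.IsRoot v ∧ q.derivative.IsRoot v := by
    intro v hv
    obtain ⟨R, hR, rfl⟩ := Finset.mem_image.mp hv
    obtain ⟨hR0, hRC⟩ := Finset.mem_erase.mp hR
    rw [mem_kerFin] at hRC
    have hoffR := hoff.add hRC
    have hx := hoffR.xC_ne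
    have hX : vX W S K (xC (T + toPt K R)) = c := vX_add hC hoff hRC
    have hTR : -(T + toPt K R) ≠ T + toPt K R := by
      intro h
      apply hR0
      refine hC R hRC (toPt_injective K ?_)
      rw [map_zero, map_add]
      have : T + toPt K R + (T + toPt K R) = 0 := by
        nth_rewrite 1 [← h]
        exact neg_add_cancel _
      rwa [add_add_add_comm, h2, zero_add] at this
    generalize hU : T + toPt K R = U at hoffR hx hX hTR ⊢
    rcases U with _ | ⟨x, y, hns⟩
    · exact absurd rfl hTR
    change vX W S K x = c at hX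
    change ∀ r ∈ S, x ≠ algebraMap K K r at hx
    change cubicVal W K x ≠ 0 ∧ q.IsRoot x ∧ q.derivative.IsRoot x
    have hG : cubicVal W K x ≠ 0 := by
      rw [← psiTwo_sq hns.1]
      exact pow_ne_zero 2 (psiTwo_ne_zero_of_ne_neg hTR)
    refine ⟨hG, hroot hx hX, ?_⟩
    have hrel := velu_relation hC (L := K) hx
    rw [← hS, hX, hc, velu_relation hC (L := K) (hoffx he), he, zero_mul, eq_comm, mul_eq_zero,
      or_iff_right hG, sq_eq_zero_iff] at hrel
    have hD := aeval_dPoly W hx
    have hN := aeval_nPoly W hx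
    simp only [coe_aeval_eq_eval, hX, hrel, zero_mul, dPoly, eval_sub, eval_mul, eval_ofNat]
      at hD hN
    have hh := aeval_hPoly_ne_zero (L := K) hx
    simp only [coe_aeval_eq_eval] at hh
    apply mul_right_cancel₀ hh
    simp only [hq, derivative_sub, derivative_C_mul, derivative_pow, eval_sub, eval_mul, eval_C,
      eval_pow, zero_mul]
    push_cast
    linear_combination hD + 2 * eval x (derivative (hPoly S)) * hN
  -- counting
  have hcard : S.card ≤ V.card := by
    have h1 := Finset.card_le_mul_card_image (s := (kerFin C).erase 0)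
      (f := fun R => xC (T + toPt K R)) 2 fun v hv => ?_
    · have h2 := two_mul_card_kerX hC
      have h3 : ((kerFin C).erase 0).card = Nat.card C - 1 := by
        rw [Finset.card_erase_of_mem ((mem_kerFin C).mpr C.zero_mem), kerFin,
          ← Set.ncard_eq_toFinset_card (C : Set (W⁄K).Point)]
        rfl
      rw [← hV] at h1
      rw [← hS] at h2
      omega
    · rw [← hV] at hv
      obtain ⟨R, hR, rfl⟩ := Finset.mem_image.mp hv
      refine (Finset.card_le_card (t := {R, -R}) fun R' hR' => ?_).trans Finset.card_le_two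
      obtain ⟨hR'1, hR'2⟩ := Finset.mem_filter.mp hR'
      rw [Finset.mem_insert, Finset.mem_singleton]
      rw [Finset.mem_erase, mem_kerFin] at hR hR'1
      rcases eq_or_eq_neg_of_xC_eq (hoff.add hR'1.2).ne_zero (hoff.add hR.2).ne_zero hR'2
        with h | h
      · left
        exact toPt_injective K (add_left_cancel h)
      · right
        apply toPt_injective K
        have hTn : -T = T := neg_eq_of_add_eq_zero_left h2
        rw [neg_add, hTn] at h
        rw [map_neg]
        exact add_left_cancel h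
  have hle : ({e, e'} : Finset K).val + 2 • V.val ≤ q.roots := by
    rw [Multiset.le_iff_count]
    intro a
    rw [Multiset.count_add, Multiset.count_nsmul, count_roots]
    by_cases ha : a ∈ V
    · obtain ⟨hG, hr1, hr2⟩ := hVG a ha
      have : a ∉ ({e, e'} : Finset K).val := by
        rw [Finset.mem_val, Finset.mem_insert, Finset.mem_singleton]
        rintro (rfl | rfl)
        exacts [hG he, hG he']
      rw [Multiset.count_eq_zero.mpr this, Multiset.count_eq_one_of_mem V.nodup ha]
      exact (one_lt_rootMultiplicity_iff_isRoot hq0).mpr ⟨hr1, hr2⟩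
    · rw [Multiset.count_eq_zero.mpr (show a ∉ V.val from ha), mul_zero, add_zero]
      by_cases ha' : a ∈ ({e, e'} : Finset K)
      · rw [Multiset.count_eq_one_of_mem (Finset.nodup _) ha']
        refine (rootMultiplicity_pos hq0).mpr ?_
        rw [Finset.mem_insert, Finset.mem_singleton] at ha'
        rcases ha' with rfl | rfl
        · exact hroot (hoffx he) rfl
        · exact hroot (hoffx he') heq.symm
      · rw [Multiset.count_eq_zero.mpr ha']
        exact Nat.zero_le _
  have := (Multiset.card_le_card hle).trans (card_roots' q)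
  rw [Multiset.card_add, Multiset.card_nsmul, Finset.card_val, Finset.card_val,
    Finset.card_pair hne, hqd] at this
  omega

include hC in
/-- **The quotient curve is smooth.** -/
theorem veluCurve_Δ_ne_zero [CharZero K] [IsAlgClosed K] [W.IsElliptic] :
    (veluCurve W (kerX C)).Δ ≠ 0 := by
  obtain ⟨e₁, e₂, e₃, h12, h13, h23, z1, z2, z3⟩ := exists_three_roots (W := W)
  set V := veluCurve W (kerX C) with hV
  have hz : ∀ {e : K}, cubicVal W K e = 0 → cubicVal V K (vX W (kerX C) K e) = 0 := by
    intro e he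
    rw [velu_relation hC fun r hr h =>
      notMem_kerX_of_cubicVal_eq_zero hC he ((show e = r from h) ▸ hr), he, zero_mul]
  have a12 := vX_ne_of_cubicVal_eq_zero hC z1 z2 h12
  have a13 := vX_ne_of_cubicVal_eq_zero hC z1 z3 h13
  have a23 := vX_ne_of_cubicVal_eq_zero hC z2 z3 h23
  have k1 := hz z1
  have k2 := hz z2
  have k3 := hz z3
  generalize vX W (kerX C) K e₁ = u₁ at a12 a13 k1
  generalize vX W (kerX C) K e₂ = u₂ at a12 a23 k2
  generalize vX W (kerX C) K e₃ = u₃ at a13 a23 k3
  simp only [cubicVal, Algebra.algebraMap_self, RingHom.id_apply] at k1 k2 k3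
  have q12 : 4 * (u₁ ^ 2 + u₁ * u₂ + u₂ ^ 2) + V.b₂ * (u₁ + u₂) + 2 * V.b₄ = 0 :=
    mul_left_cancel₀ (sub_ne_zero.mpr a12) (by linear_combination k1 - k2)
  have q13 : 4 * (u₁ ^ 2 + u₁ * u₃ + u₃ ^ 2) + V.b₂ * (u₁ + u₃) + 2 * V.b₄ = 0 :=
    mul_left_cancel₀ (sub_ne_zero.mpr a13) (by linear_combination k1 - k3)
  have r1 : V.b₂ = -4 * (u₁ + u₂ + u₃) :=
    mul_left_cancel₀ (sub_ne_zero.mpr a23) (by linear_combination q12 - q13)
  have r2 : V.b₄ = 2 * (u₁ * u₂ + u₁ * u₃ + u₂ * u₃) := by
    linear_combination (1 / 2) * q12 - (1 / 2) * (u₁ + u₂) * r1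
  have r3 : V.b₆ = -4 * (u₁ * u₂ * u₃) := by
    linear_combination k1 - u₁ ^ 2 * r1 - 2 * u₁ * r2
  have hΔ : 16 * V.Δ = 256 * ((u₁ - u₂) * (u₁ - u₃) * (u₂ - u₃)) ^ 2 := by
    rw [← WeierstrassCurve.twoTorsionPolynomial_discr]
    simp only [twoTorsionPolynomial, Cubic.discr, r1, r2, r3]
    ring
  intro h
  rw [h, mul_zero, eq_comm, mul_eq_zero, sq_eq_zero_iff, mul_eq_zero, mul_eq_zero] at hΔ
  rcases hΔ with h | (h | h) | h
  · norm_num at h
  all_goals first | exact a12 (sub_eq_zero.mp h) | exact a13 (sub_eq_zero.mp h) | exact a23 (sub_eq_zero.mp h)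

end FLTAgent.Isog
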