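import Fermat.Agent.Isog.Series
import Fermat.Agent.EllLocal.Reduction

/-!
# The invariant differential on points

For a derivation `d` killing the field of definition, `omega d` sends an affine point to
`d x / (2 y + a₁ x + a₃)`. The main result is `omega_add`: this is additive in the point
(`omegaHom`), checked case by case on the chord and tangent formulas.
-/

set_option autoImplicit false

noncomputable section

open WeierstrassCurve WeierstrassCurve.Affine
open scoped WeierstrassCurve.Affine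

namespace FLTAgent.Isog

variable {K : Type*} [Field K] {L : Type*} [Field L] [Algebra K L]
  (d : Derivation K L L) {W : Affine K}

/-- The denominator `2 y + a₁ x + a₃`. -/
def psiTwo (E : Affine L) (x y : L) : L := 2 * y + E.a₁ * x + E.a₃

/-- The numerator of the tangent slope. -/
def tanNumer (E : Affine L) (x y : L) : L := 3 * x ^ 2 + 2 * E.a₂ * x + E.a₄ - E.a₁ * y

/-- The invariant differential evaluated at a point. -/
def omega : (W⁄L).Point → L
  | 0 => 0
  | .some x y _ => d x / psiTwo (W⁄L) x y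

theorem omega_some {x y : L} (h : (W⁄L).Nonsingular x y) :
    omega d (.some x y h) = d x / psiTwo (W⁄L) x y := rfl

theorem psiTwo_negY (E : Affine L) (x y : L) : psiTwo E x (E.negY x y) = -psiTwo E x y := by
  simp only [psiTwo, negY]
  ring

variable [NeZero (2 : L)]

theorem deriv_eq_omega {x y : L} (h : (W⁄L).Nonsingular x y) :
    d x = psiTwo (W⁄L) x y * omega d (.some x y h) ∧
      d y = tanNumer (W⁄L) x y * omega d (.some x y h) := by
  have h2 : (2 : L) ≠ 0 := NeZero.ne 2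
  have key : psiTwo (W⁄L) x y * d y = tanNumer (W⁄L) x y * d x := by
    have e := congrArg d (((W⁄L).equation_iff x y).mp h.1)
    simp only [bc_a₁, bc_a₂, bc_a₃, bc_a₄, bc_a₆, map_add, Derivation.leibniz,
      Derivation.leibniz_pow, Derivation.map_algebraMap, smul_eq_mul, nsmul_eq_mul] at e
    simp only [psiTwo, tanNumer, bc_a₁, bc_a₂, bc_a₃, bc_a₄]
    push_cast at e
    linear_combination e
  by_cases hD : psiTwo (W⁄L) x y = 0
  · have hN : tanNumer (W⁄L) x y ≠ 0 := by
      intro hN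
      rcases ((W⁄L).nonsingular_iff' x y).mp h |>.2 with h' | h' <;> apply h'
      · simp only [tanNumer] at hN
        linear_combination -hN
      · simp only [psiTwo] at hD
        linear_combination hD
    have hdx : d x = 0 := by
      rw [hD, zero_mul] at key
      exact (mul_eq_zero.mp key.symm).resolve_left hN
    have hdy : d y = 0 := by
      have e := congrArg d hD
      simp only [psiTwo, bc_a₁, bc_a₃, map_add, map_zero, Derivation.leibniz,
        Derivation.map_algebraMap, hdx, smul_eq_mul, mul_zero, add_zero] at e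
      have h20 : d (2 : L) = 0 := by
        rw [← map_ofNat (algebraMap K L) 2, Derivation.map_algebraMap]
      rw [h20, mul_zero, add_zero] at e
      exact (mul_eq_zero.mp e).resolve_left h2
    simp [omega_some, hD, hdx, hdy]
  · rw [omega_some]
    refine ⟨(mul_div_cancel₀ _ hD).symm, ?_⟩
    field_simp
    linear_combination key

variable [DecidableEq L]

theorem omega_add (P Q : (W⁄L).Point) : omega d (P + Q) = omega d P + omega d Q := by
  rcases P with _ | ⟨x₁, y₁, h₁⟩
  · rw [← Point.zero_def, zero_add]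
    exact (zero_add _).symm
  rcases Q with _ | ⟨x₂, y₂, h₂⟩
  · rw [← Point.zero_def, add_zero]
    exact (add_zero _).symm
  by_cases hxy : x₁ = x₂ ∧ y₁ = (W⁄L).negY x₂ y₂
  · obtain ⟨rfl, rfl⟩ := hxy
    rw [Point.add_of_Y_eq rfl rfl]
    show (0 : L) = _
    simp only [omega_some, psiTwo_negY, div_neg]
    ring
  set ω₁ := omega d (.some x₁ y₁ h₁) with hω₁
  set ω₂ := omega d (.some x₂ y₂ h₂) with hω₂
  obtain ⟨e₁, f₁⟩ := deriv_eq_omega d h₁
  obtain ⟨e₂, f₂⟩ := deriv_eq_omega d h₂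
  rw [← hω₁] at e₁ f₁
  rw [← hω₂] at e₂ f₂
  rw [Point.add_some hxy]
  set l := (W⁄L).slope x₁ x₂ y₁ y₂ with hl
  have s₁ := EllLocal.slope_mul_sub h₁.1 h₂.1 hxy
  have s₂ := EllLocal.slope_mul_add h₁.1 h₂.1 hxy
  rw [← hl] at s₁ s₂
  set x₃ := (W⁄L).addX x₁ x₂ l with hx₃
  set y₃ := (W⁄L).addY x₁ x₂ y₁ l with hy₃
  have hs1 : x₁ + x₂ + x₃ = l ^ 2 + (W⁄L).a₁ * l - (W⁄L).a₂ := by
    simp only [hx₃, addX]; ring
  have hs2 : x₁ * x₂ + x₃ * (x₁ + x₂) = (W⁄L).a₄ - 2 * l * (y₁ - l * x₁) -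
      (W⁄L).a₁ * (y₁ - l * x₁) - (W⁄L).a₃ * l := by
    linear_combination (x₁ + x₂) * hs1 + s₂ - (l + (W⁄L).a₁) * s₁
  have hy3 : y₃ = -(y₁ + l * (x₃ - x₁)) - (W⁄L).a₁ * x₃ - (W⁄L).a₃ := by
    simp only [hy₃, addY, negAddY, negY, hx₃]; ring
  have hn1 : tanNumer (W⁄L) x₁ y₁ - l * psiTwo (W⁄L) x₁ y₁ = (x₁ - x₂) * (x₁ - x₃) := by
    simp only [tanNumer, psiTwo]
    linear_combination -hs2 + 2 * x₁ * hs1
  have hn2 : tanNumer (W⁄L) x₂ y₂ - l * psiTwo (W⁄L) x₂ y₂ = (x₂ - x₁) * (x₂ - x₃) := by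
    simp only [tanNumer, psiTwo]
    linear_combination -hs2 + 2 * x₂ * hs1 - (2 * l + (W⁄L).a₁) * s₁
  have hn3 : tanNumer (W⁄L) x₃ y₃ =
      (x₁ - x₃) * (x₂ - x₃) - (l + (W⁄L).a₁) * psiTwo (W⁄L) x₃ y₃ := by
    rw [hy3]
    simp only [tanNumer, psiTwo]
    linear_combination -hs2 + 2 * x₃ * hs1
  have hD13 : psiTwo (W⁄L) x₁ y₁ + psiTwo (W⁄L) x₃ y₃ = (2 * l + (W⁄L).a₁) * (x₁ - x₃) := by
    rw [hy3]; simp only [psiTwo]; ring
  have hD23 : psiTwo (W⁄L) x₂ y₂ + psiTwo (W⁄L) x₃ y₃ = (2 * l + (W⁄L).a₁) * (x₂ - x₃) := by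
    rw [hy3]; simp only [psiTwo]
    linear_combination 2 * s₁
  have hdl : d l = (x₁ - x₃) * ω₁ + (x₂ - x₃) * ω₂ := by
    by_cases hx : x₁ = x₂
    · subst hx
      have hy : y₁ ≠ (W⁄L).negY x₁ y₂ := fun e => hxy ⟨rfl, e⟩
      obtain rfl := Y_eq_of_Y_ne h₁.1 h₂.1 rfl hy
      have hD : psiTwo (W⁄L) x₁ y₁ ≠ 0 := by
        intro e
        apply hy
        simp only [psiTwo] at e
        simp only [negY]
        linear_combination e
      have hω : ω₂ = ω₁ := rfl
      have hlD : l * psiTwo (W⁄L) x₁ y₁ = tanNumer (W⁄L) x₁ y₁ := by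
        linear_combination -hn1
      have hd := congrArg d hlD
      simp only [psiTwo, tanNumer, bc_a₁, bc_a₂, bc_a₃, bc_a₄, map_add, map_sub,
        Derivation.leibniz, Derivation.leibniz_pow, Derivation.map_algebraMap, smul_eq_mul,
        nsmul_eq_mul, e₁, f₁] at hd
      have h20 : d (2 : L) = 0 := by
        rw [← map_ofNat (algebraMap K L) 2, Derivation.map_algebraMap]
      have h30 : d (3 : L) = 0 := by
        rw [← map_ofNat (algebraMap K L) 3, Derivation.map_algebraMap]
      rw [h20, h30] at hd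
      push_cast at hd
      rw [hω]
      apply mul_left_cancel₀ hD
      simp only [psiTwo, tanNumer, bc_a₁, bc_a₂, bc_a₃, bc_a₄] at hd hlD hs1 hs2 hn1 ⊢
      linear_combination hd + (2 * l + algebraMap K L W.a₁) * ω₁ * hlD +
        2 * ω₁ * (2 * y₁ + algebraMap K L W.a₁ * x₁ + algebraMap K L W.a₃) * hs1
    · have hd := congrArg d s₁
      simp only [map_sub, Derivation.leibniz, smul_eq_mul, e₁, f₁, e₂, f₂] at hd
      apply mul_right_cancel₀ (sub_ne_zero.mpr hx)
      linear_combination hd + ω₁ * hn1 - ω₂ * hn2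
  have hdx : d x₃ = psiTwo (W⁄L) x₃ y₃ * (ω₁ + ω₂) := by
    have hd := congrArg d hs1
    simp only [bc_a₁, bc_a₂, map_add, map_sub, Derivation.leibniz, Derivation.leibniz_pow,
      Derivation.map_algebraMap, smul_eq_mul, nsmul_eq_mul, e₁, e₂, hdl] at hd
    simp only [psiTwo, bc_a₁, bc_a₃] at hD13 hD23 ⊢
    simp only [psiTwo, bc_a₁, bc_a₃] at hd
    push_cast at hd
    linear_combination hd - ω₁ * hD13 - ω₂ * hD23
  rw [omega_some]
  by_cases hD : psiTwo (W⁄L) x₃ y₃ = 0
  · obtain ⟨-, f₃⟩ := deriv_eq_omega d (nonsingular_add h₁ h₂ hxy)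
    simp only [omega_some, ← hx₃, ← hy₃, ← hl, hD, div_zero, mul_zero] at f₃
    have hne : (x₁ - x₃) * (x₂ - x₃) ≠ 0 := by
      intro e
      have hns := nonsingular_add h₁ h₂ hxy
      rw [← hl, ← hx₃, ← hy₃] at hns
      rw [e, hD, mul_zero, sub_zero] at hn3
      rcases ((W⁄L).nonsingular_iff' x₃ y₃).mp hns |>.2 with h' | h' <;> apply h'
      · simp only [tanNumer] at hn3
        linear_combination -hn3
      · simp only [psiTwo] at hD
        linear_combination hD
    have hd := congrArg d hy3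
    have hdx0 : d x₃ = 0 := by rw [hdx, hD, zero_mul]
    simp only [bc_a₁, bc_a₃, map_add, map_sub, map_neg, Derivation.leibniz,
      Derivation.map_algebraMap, smul_eq_mul, hdl, f₁, e₁, f₃, hdx0] at hd
    rw [hD, div_zero]
    have hfin : (x₁ - x₃) * (x₂ - x₃) * (ω₁ + ω₂) = 0 := by
      linear_combination -hd + ω₁ * hn1
    exact ((mul_eq_zero.mp hfin).resolve_left hne).symm
  · rw [hdx, mul_div_cancel_left₀ _ hD]

/-- The invariant differential as an additive map. -/
def omegaHom : (W⁄L).Point →+ L where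
  toFun := omega d
  map_zero' := rfl
  map_add' := omega_add d

theorem omega_sub (P Q : (W⁄L).Point) : omega d (P - Q) = omega d P - omega d Q :=
  map_sub (omegaHom d) P Q

end FLTAgent.Isog
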