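import Fermat.Agent.Isog.Nondeg
import Fermat.Agent.EllLocal.Torsion

/-!
# Vélu's quotient of a semistable model is semistable

Residue characteristic prime to `6 p`, kernel of odd prime order `p` with integral abscissae.
`veluModel` is the quotient over the valuation ring; `veluModel_semistable` shows that `c₄` and
`Δ` do not both reduce to zero. If they did, the reduced cubic would have a triple root, which
the polynomial identity between the two cubics forbids for degree reasons
(`natDegree_cast_eq_zero`). `veluCurve_semistable` restates this for the curve over the field.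
-/

set_option autoImplicit false

noncomputable section

open Polynomial WeierstrassCurve WeierstrassCurve.Affine
open scoped WeierstrassCurve.Affine

namespace FLTAgent.Isog

/-- `4 X³ + b₂ X² + 2 b₄ X + b₆`. -/
def cubicPoly {R : Type*} [CommRing R] (E : WeierstrassCurve R) : R[X] :=
  C 4 * X ^ 3 + C E.b₂ * X ^ 2 + C (2 * E.b₄) * X + C E.b₆

theorem map_cubicPoly {R S : Type*} [CommRing R] [CommRing S] (E : WeierstrassCurve R)
    (f : R →+* S) : (cubicPoly E).map f = cubicPoly (E.map f) := by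
  simp [cubicPoly, map_ofNat]

section Field

variable {k : Type*} [Field k] (E : WeierstrassCurve k) (h2 : (2 : k) ≠ 0) (h3 : (3 : k) ≠ 0)

include h2 h3

theorem exists_triple_of_additive (hc : E.c₄ = 0) (hΔ : E.Δ = 0) :
    ∃ e : k, E.b₂ = -12 * e ∧ E.b₄ = 6 * e ^ 2 ∧ E.b₆ = -4 * e ^ 3 := by
  have h6 : (12 : k) ≠ 0 := by
    rw [show (12 : k) = 2 * 2 * 3 by norm_num]
    exact mul_ne_zero (mul_ne_zero h2 h2) h3
  have h216 : (216 : k) ≠ 0 := by
    rw [show (216 : k) = 2 ^ 3 * 3 ^ 3 by norm_num]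
    exact mul_ne_zero (pow_ne_zero 3 h2) (pow_ne_zero 3 h3)
  have h24 : (24 : k) ≠ 0 := by
    rw [show (24 : k) = 2 ^ 3 * 3 by norm_num]
    exact mul_ne_zero (pow_ne_zero 3 h2) h3
  have hrel := E.c_relation
  rw [hc, hΔ, mul_zero, zero_pow three_ne_zero, zero_sub, zero_eq_neg, sq_eq_zero_iff] at hrel
  obtain ⟨e, he⟩ : ∃ e, E.b₂ = -12 * e := ⟨-E.b₂ / 12, by field_simp⟩
  simp only [WeierstrassCurve.c₄, he] at hc
  have hb4 : E.b₄ = 6 * e ^ 2 := by
    apply mul_left_cancel₀ h24
    linear_combination -hc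
  simp only [WeierstrassCurve.c₆, he, hb4] at hrel
  refine ⟨e, he, hb4, ?_⟩
  apply mul_left_cancel₀ h216
  linear_combination -hrel

theorem rootMultiplicity_cubicPoly_le (h : E.c₄ ≠ 0 ∨ E.Δ ≠ 0) (a : k) :
    (cubicPoly E).rootMultiplicity a ≤ 2 := by
  have h4 : (4 : k) ≠ 0 := by
    rw [show (4 : k) = 2 * 2 by norm_num]
    exact mul_ne_zero h2 h2
  have hne : cubicPoly E ≠ 0 := fun h0 => h4 <| by
    have := congrArg (fun q : k[X] => q.coeff 3) h0
    simpa [cubicPoly, coeff_C, coeff_X] using this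
  by_contra hcon
  have h3' : (X - C a) ^ 3 ∣ cubicPoly E :=
    (le_rootMultiplicity_iff hne).mp (by omega)
  obtain ⟨q, hq⟩ := h3'
  have hdeg : (cubicPoly E).natDegree ≤ 3 := by
    simp only [cubicPoly]
    compute_degree
  have hq0 : q ≠ 0 := by rintro rfl; exact hne (by rw [hq, mul_zero])
  have hqd : q.natDegree = 0 := by
    rw [hq, natDegree_mul (pow_ne_zero 3 (X_sub_C_ne_zero a)) hq0, natDegree_pow,
      natDegree_X_sub_C] at hdeg
    omega
  obtain ⟨c, rfl⟩ : ∃ c, q = C c := ⟨_, eq_C_of_natDegree_eq_zero hqd⟩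
  have e : ∀ i, (cubicPoly E).coeff i = (C c * (X ^ 3 - C (3 * a) * X ^ 2 + C (3 * a ^ 2) * X -
      C (a ^ 3))).coeff i := by
    intro i
    rw [hq]
    congr 1
    simp only [map_mul, map_pow, map_ofNat]
    ring
  have e3 := e 3
  have e2 := e 2
  have e1 := e 1
  have e0 := e 0
  simp only [cubicPoly, coeff_add, coeff_sub, coeff_C_mul, coeff_X_pow, coeff_X, coeff_C]
    at e0 e1 e2 e3
  norm_num at e0 e1 e2 e3
  have hb2 : E.b₂ = -12 * a := by linear_combination e2 + 3 * a * e3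
  have hb4 : E.b₄ = 6 * a ^ 2 := by
    apply mul_left_cancel₀ h2
    linear_combination e1 - 3 * a ^ 2 * e3
  have hb6 : E.b₆ = -4 * a ^ 3 := by linear_combination e0 + a ^ 3 * e3
  have hb8 : E.b₈ = 3 * a ^ 4 := by
    apply mul_left_cancel₀ h4
    rw [E.b_relation, hb2, hb4, hb6]
    ring
  rcases h with h | h <;> apply h
  · simp only [WeierstrassCurve.c₄, hb2, hb4]; ring
  · simp only [WeierstrassCurve.Δ, hb2, hb4, hb6, hb8]; ring

omit h3 in
/-- The combinatorial core: a monic numerator all of whose roots would be multiple. -/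
theorem natDegree_cast_eq_zero [IsAlgClosed k] {G D A H : k[X]} (hA : A.Monic)
    (hD : D = derivative A * H - 2 * A * derivative H)
    (hrel : G * D ^ 2 = 4 * A ^ 3) (hG : ∀ a, G.rootMultiplicity a ≤ 2)
    (hroot : ∀ a, A.IsRoot a → ¬ H.IsRoot a) : (A.natDegree : k) = 0 := by
  classical
  have key : ∀ a ∈ A.roots, ((A.roots.count a : ℕ) : k) = 0 := by
    intro a ha
    rw [count_roots]
    have hA0 : A ≠ 0 := hA.ne_zero
    obtain ⟨B, hB, hBa⟩ := exists_eq_pow_rootMultiplicity_mul_and_not_dvd A hA0 a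
    rw [dvd_iff_isRoot] at hBa
    have hm1 : 0 < A.rootMultiplicity a := (rootMultiplicity_pos hA0).mpr (isRoot_of_mem_roots ha)
    set m := A.rootMultiplicity a with hm
    by_contra hne
    obtain ⟨n, hn⟩ : ∃ n, m = n + 1 := ⟨m - 1, by omega⟩
    set Q := C ((n + 1 : ℕ) : k) * B * H +
      (X - C a) * (derivative B * H - 2 * B * derivative H) with hQ
    have hDQ : D = (X - C a) ^ n * Q := by
      rw [hD, hB, hn, Polynomial.derivative_mul, derivative_X_sub_C_pow, hQ]
      simp only [Nat.add_sub_cancel, pow_succ]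
      ring
    have hQa : ¬ Q.IsRoot a := by
      rw [IsRoot.def, hQ]
      simp only [eval_add, eval_mul, eval_sub, eval_X, eval_C, sub_self, zero_mul, add_zero]
      refine mul_ne_zero (mul_ne_zero ?_ hBa) (hroot a (isRoot_of_mem_roots ha))
      rw [hn] at hne
      exact hne
    have h4 : (4 : k[X]) ≠ 0 := by
      rw [← map_ofNat C 4, Ne, C_eq_zero, show (4 : k) = 2 * 2 by norm_num]
      exact mul_ne_zero h2 h2
    have hG0 : G ≠ 0 := by
      rintro rfl
      rw [zero_mul, eq_comm] at hrel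
      exact (mul_ne_zero h4 (pow_ne_zero 3 hA0)) hrel
    have hQ0 : Q ≠ 0 := fun h => hQa (by rw [h]; exact eval_zero)
    have hD0 : D ≠ 0 := hDQ ▸ mul_ne_zero (pow_ne_zero n (X_sub_C_ne_zero a)) hQ0
    have hDm : D.rootMultiplicity a = n := by
      rw [hDQ, rootMultiplicity_mul (hDQ ▸ hD0), rootMultiplicity_X_sub_C_pow,
        rootMultiplicity_eq_zero hQa, add_zero]
    have h := congrArg (rootMultiplicity a) hrel
    rw [rootMultiplicity_mul (mul_ne_zero hG0 (pow_ne_zero 2 hD0)), pow_two,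
      rootMultiplicity_mul (mul_ne_zero hD0 hD0), hDm,
      rootMultiplicity_mul (mul_ne_zero h4 (pow_ne_zero 3 hA0)), pow_succ, pow_two,
      rootMultiplicity_mul (mul_ne_zero (mul_ne_zero hA0 hA0) hA0),
      rootMultiplicity_mul (mul_ne_zero hA0 hA0), ← hm, ← map_ofNat C 4, rootMultiplicity_C] at h
    have := hG a
    omega
  rw [← IsAlgClosed.card_roots_eq_natDegree, ← Multiset.toFinset_sum_count_eq, Nat.cast_sum]
  exact Finset.sum_eq_zero fun a ha => key a (Multiset.mem_toFinset.mp ha)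

end Field

section Main

variable {K : Type*} [Field K] [CharZero K] [IsAlgClosed K] [DecidableEq K]
  {A : ValuationSubring K} (W₀ : WeierstrassCurve A)

/-- Points over `K` of the generic fibre, as points of the model. -/
def toGen : ((EllLocal.genCurve A W₀)⁄K).Point →+ (EllLocal.genCurve A W₀).Point :=
  AddMonoidHom.id (EllLocal.genCurve A W₀).Point

variable {W₀} {C : AddSubgroup ((EllLocal.genCurve A W₀)⁄K).Point} [Finite C]
  {k : Type*} [Field k] (ρ : A →+* k)

/-- The reduction of `x`, `0` off the valuation ring. -/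
def redX (x : K) : A := open Classical in if h : x ∈ A then ⟨x, h⟩ else 0

theorem coe_redX {x : K} (h : x ∈ A) : ((redX (A := A) x : A) : K) = x := by
  simp [redX, h]

variable (C)

/-- The quotient over the valuation ring. -/
def veluModel : WeierstrassCurve A :=
  let t : A := ∑ r ∈ kerX C, (6 * redX r ^ 2 + W₀.b₂ * redX r + W₀.b₄)
  let w : A := ∑ r ∈ kerX C, ((4 * redX r ^ 3 + W₀.b₂ * redX r ^ 2 + 2 * W₀.b₄ * redX r + W₀.b₆) +
    redX r * (6 * redX r ^ 2 + W₀.b₂ * redX r + W₀.b₄))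
  ⟨W₀.a₁, W₀.a₂, W₀.a₃, W₀.a₄ - 5 * t, W₀.a₆ - W₀.b₂ * t - 7 * w⟩

variable {C}

theorem veluModel_map (hint : ∀ r ∈ kerX C, r ∈ A) :
    ((veluModel C).map A.subtype).toAffine =
      veluCurve (EllLocal.genCurve A W₀) (kerX C) := by
  have hb₂ : (EllLocal.genCurve A W₀).b₂ = A.subtype W₀.b₂ := W₀.map_b₂ A.subtype
  have hb₄ : (EllLocal.genCurve A W₀).b₄ = A.subtype W₀.b₄ := W₀.map_b₄ A.subtype
  have hb₆ : (EllLocal.genCurve A W₀).b₆ = A.subtype W₀.b₆ := W₀.map_b₆ A.subtype
  have hc : ∀ r ∈ kerX C, A.subtype (redX r) = r := fun r hr => coe_redX (hint r hr)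
  ext
  · rfl
  · rfl
  · rfl
  · simp only [veluModel, veluCurve, map_a₄, map_sub, map_mul, map_sum, map_add, map_pow, map_ofNat,
      veluT, tR, hb₂, hb₄]
    congr 2
    exact Finset.sum_congr rfl fun r hr => by rw [hc r hr]
  · simp only [veluModel, veluCurve, map_a₆, map_sub, map_mul, map_sum, map_add, map_pow, map_ofNat,
      veluT, veluW, tR, uR, hb₂, hb₄, hb₆]
    congr 2
    · congr 1
      exact Finset.sum_congr rfl fun r hr => by rw [hc r hr]
    · exact Finset.sum_congr rfl fun r hr => by rw [hc r hr]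

variable [IsAlgClosed k] (hρ : ∀ a : A, ρ a = 0 ↔ IsLocalRing.residue A a = 0)
  (h2 : (2 : k) ≠ 0) (h3 : (3 : k) ≠ 0) {p : ℕ} (hp : p.Prime) (hp2 : p ≠ 2)
  (hC : Nat.card C = p) (hpk : (p : k) ≠ 0)

include hp hp2 hC in
theorem no_two_torsion : ∀ P ∈ C, P + P = 0 → P = 0 := by
  intro P hP h
  have h1 := addOrderOf_dvd_natCard (⟨P, hP⟩ : C)
  rw [hC, AddSubgroup.addOrderOf_mk] at h1
  have h2 : addOrderOf P ∣ 2 := addOrderOf_dvd_of_nsmul_eq_zero (by rwa [two_nsmul])
  rw [← AddMonoid.addOrderOf_eq_one_iff]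
  exact Nat.dvd_one.mp
    (((Nat.coprime_primes hp Nat.prime_two).mpr hp2) ▸ Nat.dvd_gcd h1 h2)

include hρ h2 h3 hp hp2 hC hpk in
/-- **The quotient has no additive reduction.** -/
theorem veluModel_semistable [(EllLocal.genCurve A W₀).IsElliptic]
    (hint : ∀ r ∈ kerX C, r ∈ A) (hss : ρ W₀.c₄ ≠ 0 ∨ ρ W₀.Δ ≠ 0) :
    ¬ (ρ (veluModel C).c₄ = 0 ∧ ρ (veluModel C).Δ = 0) := by
  rintro ⟨hc, hΔ⟩
  have hC2 := no_two_torsion hp hp2 hC
  set V₀ := veluModel C with hV₀
  have hpA : ((p : ℕ) : IsLocalRing.ResidueField A) ≠ 0 := by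
    intro h
    apply hpk
    rw [← map_natCast ρ, hρ, map_natCast]
    exact h
  -- lifts of the points of `C`
  have hlift : ∀ R ∈ C, R ≠ 0 → ∃ a b, EllLocal.IsLift (toGen W₀ R) a b ∧ (a : K) = xC R ∧
      redX (xC R) = a := by
    intro R hR hR0
    have hr : xC R ∈ A := hint _ ((mem_kerX C).mpr ⟨R, hR, hR0, rfl⟩)
    rcases R with _ | ⟨x, y, hxy⟩
    · exact absurd rfl hR0
    change x ∈ A at hr
    have hn : (EllLocal.genCurve A W₀).Nonsingular x y := hxy
    exact ⟨⟨x, hr⟩, ⟨y, EllLocal.y_mem_of_x_mem hn.1 hr⟩, ⟨hn, rfl⟩, rfl,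
      Subtype.ext (coe_redX hr)⟩
  have hkill : ∀ R ∈ C, p • toGen W₀ R = 0 := by
    intro R hR
    rw [← map_nsmul]
    have h : p • (⟨R, hR⟩ : C) = 0 := hC ▸ card_nsmul_eq_zero'
    rw [show p • R = 0 from congrArg Subtype.val h, map_zero]
  -- residual values of `uR` and `tR`
  have hsing : ∀ {P : (EllLocal.genCurve A W₀).Point} {a b : A}, EllLocal.IsLift P a b →
      ¬ (EllLocal.redCurve A W₀).Nonsingular (IsLocalRing.residue A a) (IsLocalRing.residue A b) →
      ρ (6 * a ^ 2 + W₀.b₂ * a + W₀.b₄) = 0 ∧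
        ρ (4 * a ^ 3 + W₀.b₂ * a ^ 2 + 2 * W₀.b₄ * a + W₀.b₆) = 0 := by
    intro P a b hl hns
    have heq := (equation_iff a b).mp hl.equation
    rw [nonsingular_iff', and_iff_right hl.redEquation, not_or, not_not, not_not] at hns
    obtain ⟨hX, hY⟩ := hns
    simp only [WeierstrassCurve.map_a₁, WeierstrassCurve.map_a₂, WeierstrassCurve.map_a₃,
      WeierstrassCurve.map_a₄] at hX hY
    have hX' : IsLocalRing.residue A (W₀.a₁ * b - (3 * a ^ 2 + 2 * W₀.a₂ * a + W₀.a₄)) = 0 := by
      simp only [map_sub, map_add, map_mul, map_pow, map_ofNat]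
      linear_combination hX
    have hY' : IsLocalRing.residue A (2 * b + W₀.a₁ * a + W₀.a₃) = 0 := by
      simp only [map_add, map_mul, map_ofNat]
      linear_combination hY
    rw [← hρ] at hX' hY'
    refine ⟨?_, ?_⟩
    · have : 6 * a ^ 2 + W₀.b₂ * a + W₀.b₄ =
          -2 * (W₀.a₁ * b - (3 * a ^ 2 + 2 * W₀.a₂ * a + W₀.a₄)) +
            W₀.a₁ * (2 * b + W₀.a₁ * a + W₀.a₃) := by
        simp only [WeierstrassCurve.b₂, WeierstrassCurve.b₄]; ring
      rw [this, map_add, map_mul, map_mul, hX', hY', mul_zero, mul_zero, add_zero]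
    · have : 4 * a ^ 3 + W₀.b₂ * a ^ 2 + 2 * W₀.b₄ * a + W₀.b₆ =
          (2 * b + W₀.a₁ * a + W₀.a₃) ^ 2 := by
        simp only [WeierstrassCurve.b₂, WeierstrassCurve.b₄, WeierstrassCurve.b₆]
        linear_combination -4 * heq
      rw [this, map_pow, hY', zero_pow two_ne_zero]
  by_cases hall : ∀ R ∈ C, R ≠ 0 → toGen W₀ R ∉ EllLocal.E0 A W₀
  · -- all points on the singular point: the coefficients do not change
    have hz : ∀ r ∈ kerX C, ρ (6 * redX r ^ 2 + W₀.b₂ * redX r + W₀.b₄) = 0 ∧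
        ρ (4 * redX r ^ 3 + W₀.b₂ * redX r ^ 2 + 2 * W₀.b₄ * redX r + W₀.b₆) = 0 := by
      intro r hr
      obtain ⟨R, hR, hR0, rfl⟩ := (mem_kerX C).mp hr
      obtain ⟨a, b, hl, -, hred⟩ := hlift R hR hR0
      rw [hred]
      exact hsing hl fun hns => hall R hR hR0 (Or.inr ⟨a, b, hl, hns⟩)
    have ht : ρ (∑ r ∈ kerX C, (6 * redX r ^ 2 + W₀.b₂ * redX r + W₀.b₄)) = 0 := by
      rw [map_sum]
      exact Finset.sum_eq_zero fun r hr => (hz r hr).1
    have hw : ρ (∑ r ∈ kerX C, ((4 * redX r ^ 3 + W₀.b₂ * redX r ^ 2 + 2 * W₀.b₄ * redX r +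
        W₀.b₆) + redX r * (6 * redX r ^ 2 + W₀.b₂ * redX r + W₀.b₄))) = 0 := by
      rw [map_sum]
      exact Finset.sum_eq_zero fun r hr => by
        rw [map_add, map_mul, (hz r hr).1, (hz r hr).2, mul_zero, add_zero]
    have hmap : V₀.map ρ = W₀.map ρ := by
      ext
      · rfl
      · rfl
      · rfl
      · simp only [hV₀, veluModel, map_a₄, map_sub, map_mul, ht, mul_zero, sub_zero]
      · simp only [hV₀, veluModel, map_a₆, map_sub, map_mul, ht, hw, mul_zero, sub_zero]
    rw [← WeierstrassCurve.map_c₄, hmap, WeierstrassCurve.map_c₄] at hc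
    rw [← WeierstrassCurve.map_Δ, hmap, WeierstrassCurve.map_Δ] at hΔ
    exact hss.elim (· hc) (· hΔ)
  -- all points nonsingular
  push Not at hall
  obtain ⟨R₁, hR₁, hR₁0, hR₁E⟩ := hall
  have hgen : ∀ R ∈ C, toGen W₀ R ∈ EllLocal.E0 A W₀ := by
    intro R hR
    have hle : AddSubgroup.zmultiples R₁ ≤ C := AddSubgroup.zmultiples_le.mpr hR₁
    have hord : addOrderOf R₁ = p := by
      have h1 := addOrderOf_dvd_natCard (⟨R₁, hR₁⟩ : C)
      rw [hC, AddSubgroup.addOrderOf_mk, Nat.dvd_prime hp] at h1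
      exact h1.resolve_left fun h => hR₁0 (AddMonoid.addOrderOf_eq_one_iff.mp h)
    have heq : AddSubgroup.zmultiples R₁ = C :=
      AddSubgroup.eq_of_le_of_card_ge hle (by rw [Nat.card_zmultiples, hord, hC])
    rw [← heq] at hR
    obtain ⟨n, rfl⟩ := hR
    show toGen W₀ (n • R₁) ∈ _
    rw [map_zsmul]
    exact AddSubgroup.zsmul_mem _ hR₁E n
  have hns : ∀ R ∈ C, R ≠ 0 → ∀ a b, EllLocal.IsLift (toGen W₀ R) a b →
      (EllLocal.redCurve A W₀).Nonsingular (IsLocalRing.residue A a) (IsLocalRing.residue A b) := by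
    intro R hR _ a b hl
    rcases hgen R hR with h1 | ⟨a', b', hl', h'⟩
    · exact absurd h1 hl.not_inE1
    · obtain ⟨rfl, rfl⟩ := hl'.unique hl
      exact h'
  have hinj : ∀ r ∈ kerX C, ∀ r' ∈ kerX C, ρ (redX r) = ρ (redX r') → r = r' := by
    intro r hr r' hr' he
    obtain ⟨R, hR, hR0, rfl⟩ := (mem_kerX C).mp hr
    obtain ⟨R', hR', hR'0, rfl⟩ := (mem_kerX C).mp hr'
    obtain ⟨a, b, hl, -, hred⟩ := hlift R hR hR0
    obtain ⟨a', b', hl', -, hred'⟩ := hlift R' hR' hR'0
    rw [hred, hred', ← sub_eq_zero, ← map_sub, hρ, map_sub, sub_eq_zero] at he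
    have hn := hns R hR hR0 a b hl
    rcases Y_eq_of_X_eq hl.redEquation hl'.redEquation he with hy | hy
    · have h := EllLocal.eq_of_same_reduction hl hl' hn he hy hpA (hkill R hR) (hkill R' hR')
      exact congrArg xC (h : R = R')
    · have hl'' : EllLocal.IsLift (toGen W₀ (-R')) a' (W₀.toAffine.negY a' b') := by
        rw [map_neg]; exact hl'.neg
      have h := EllLocal.eq_of_same_reduction hl hl'' hn he
        (hy.trans (EllLocal.redCurve_negY a' b')) hpA (hkill R hR) (hkill _ (C.neg_mem hR'))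
      rw [show R = -R' from h, xC_neg]
  have hu : ∀ r ∈ kerX C,
      ρ (4 * redX r ^ 3 + W₀.b₂ * redX r ^ 2 + 2 * W₀.b₄ * redX r + W₀.b₆) ≠ 0 := by
    intro r hr h0
    obtain ⟨R, hR, hR0, rfl⟩ := (mem_kerX C).mp hr
    obtain ⟨a, b, hl, -, hred⟩ := hlift R hR hR0
    rw [hred] at h0
    have heq := (equation_iff a b).mp hl.equation
    have e : 4 * a ^ 3 + W₀.b₂ * a ^ 2 + 2 * W₀.b₄ * a + W₀.b₆ =
        (2 * b + W₀.a₁ * a + W₀.a₃) ^ 2 := by
      simp only [WeierstrassCurve.b₂, WeierstrassCurve.b₄, WeierstrassCurve.b₆]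
      linear_combination -4 * heq
    rw [e, map_pow, sq_eq_zero_iff, hρ] at h0
    have hl' : EllLocal.IsLift (toGen W₀ (-R)) a (W₀.toAffine.negY a b) := by
      rw [map_neg]; exact hl.neg
    have h := EllLocal.eq_of_same_reduction hl hl' (hns R hR hR0 a b hl) rfl ?_ hpA (hkill R hR)
      (hkill _ (C.neg_mem hR))
    · exact hR0 (hC2 R hR (by nth_rewrite 2 [show R = -R from h]; exact add_neg_cancel R))
    · simp only [Affine.negY, map_sub, map_neg, map_mul]
      simp only [map_add, map_mul, map_ofNat] at h0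
      linear_combination h0
  -- the polynomial identity over the valuation ring
  let hA : Finset K → A[X] := fun T => ∏ r ∈ T, (X - Polynomial.C (redX r))
  let NA : A[X] := X * hA (kerX C) ^ 2 + ∑ r ∈ kerX C,
    (Polynomial.C (6 * redX r ^ 2 + W₀.b₂ * redX r + W₀.b₄) * (X - Polynomial.C (redX r)) +
      Polynomial.C (4 * redX r ^ 3 + W₀.b₂ * redX r ^ 2 + 2 * W₀.b₄ * redX r + W₀.b₆)) *
        hA ((kerX C).erase r) ^ 2
  let DA : A[X] := derivative NA * hA (kerX C) - 2 * NA * derivative (hA (kerX C))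
  have hsub : ∀ r ∈ kerX C, A.subtype (redX r) = r := fun r hr => coe_redX (hint r hr)
  have hb₂ : (EllLocal.genCurve A W₀).b₂ = A.subtype W₀.b₂ := W₀.map_b₂ A.subtype
  have hb₄ : (EllLocal.genCurve A W₀).b₄ = A.subtype W₀.b₄ := W₀.map_b₄ A.subtype
  have hb₆ : (EllLocal.genCurve A W₀).b₆ = A.subtype W₀.b₆ := W₀.map_b₆ A.subtype
  have hhmap : ∀ T ⊆ kerX C, (hA T).map A.subtype = hPoly T := by
    intro T hT
    simp only [hA, hPoly, Polynomial.map_prod, Polynomial.map_sub, map_X, map_C]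
    exact Finset.prod_congr rfl fun r hr => by rw [hsub r (hT hr)]
  have hNmap : NA.map A.subtype = nPoly (EllLocal.genCurve A W₀) (kerX C) := by
    simp only [NA, nPoly, Polynomial.map_add, Polynomial.map_mul, Polynomial.map_pow,
      Polynomial.map_sum, map_X, hhmap _ subset_rfl]
    congr 1
    refine Finset.sum_congr rfl fun r hr => ?_
    rw [hhmap _ (Finset.erase_subset r _)]
    simp only [tR, uR, hb₂, hb₄, hb₆, map_add, map_mul, map_pow, map_ofNat, Polynomial.map_add,
      Polynomial.map_mul, Polynomial.map_pow, Polynomial.map_ofNat, Polynomial.map_sub, map_X,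
      map_C, hsub r hr]
  have hDmap : DA.map A.subtype = dPoly (EllLocal.genCurve A W₀) (kerX C) := by
    simp only [DA, dPoly, Polynomial.map_sub, Polynomial.map_mul, Polynomial.map_ofNat,
      ← derivative_map, hNmap, hhmap _ subset_rfl]
  have hrelA : cubicPoly W₀ * DA ^ 2 = 4 * NA ^ 3 +
      Polynomial.C V₀.b₂ * NA ^ 2 * hA (kerX C) ^ 2 +
      Polynomial.C (2 * V₀.b₄) * NA * hA (kerX C) ^ 4 + Polynomial.C V₀.b₆ * hA (kerX C) ^ 6 := by
    apply Polynomial.map_injective A.subtype Subtype.val_injective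
    have h := phiPoly_eq_zero (C := C) hC2
    rw [phiPoly, sub_eq_zero] at h
    have e2 : A.subtype V₀.b₂ = (veluCurve (EllLocal.genCurve A W₀) (kerX C)).b₂ := by
      rw [← veluModel_map hint]; exact (V₀.map_b₂ A.subtype).symm
    have e4 : A.subtype V₀.b₄ = (veluCurve (EllLocal.genCurve A W₀) (kerX C)).b₄ := by
      rw [← veluModel_map hint]; exact (V₀.map_b₄ A.subtype).symm
    have e6 : A.subtype V₀.b₆ = (veluCurve (EllLocal.genCurve A W₀) (kerX C)).b₆ := by
      rw [← veluModel_map hint]; exact (V₀.map_b₆ A.subtype).symm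
    simp only [Polynomial.map_add, Polynomial.map_mul, Polynomial.map_pow, Polynomial.map_ofNat,
      map_C, hNmap, hDmap, hhmap _ subset_rfl, cubicPoly, map_X, e2, e4, e6, map_mul, map_ofNat]
    simp only [map_mul, map_ofNat, hb₂, hb₄, hb₆, veluCurve_b₂] at h ⊢
    exact h
  -- reduction
  set E := W₀.map ρ with hE
  obtain ⟨e, he2, he4, he6⟩ := exists_triple_of_additive (V₀.map ρ) h2 h3
    (by rw [WeierstrassCurve.map_c₄]; exact hc) (by rw [WeierstrassCurve.map_Δ]; exact hΔ)
  set H : k[X] := (hA (kerX C)).map ρ with hH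
  set N : k[X] := NA.map ρ with hN
  set M : k[X] := N - Polynomial.C e * H ^ 2 with hM
  have hHm : H.Monic := (monic_prod_of_monic _ _ fun _ _ => monic_X_sub_C _).map ρ
  have hhm : (hA (kerX C)).Monic := monic_prod_of_monic _ _ fun _ _ => monic_X_sub_C _
  obtain ⟨hnm, hnd⟩ := nPoly_monic (kerX C) (EllLocal.genCurve A W₀)
  have hNAm : NA.Monic := by
    refine monic_of_injective (f := A.subtype) Subtype.val_injective ?_
    rw [hNmap]
    exact hnm
  have hNd : N.natDegree = p := by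
    rw [hN, hNAm.natDegree_map, ← natDegree_map_eq_of_injective (f := A.subtype)
      Subtype.val_injective, hNmap, hnd, two_mul_card_kerX hC2, hC]
  have hHd : H.natDegree = (kerX C).card := by
    rw [hH, hhm.natDegree_map, ← natDegree_map_eq_of_injective (f := A.subtype)
      Subtype.val_injective, hhmap _ subset_rfl, natDegree_hPoly]
  have hlt : (Polynomial.C e * H ^ 2).degree < N.degree := by
    rw [degree_eq_natDegree (hNAm.map ρ).ne_zero, hNd]
    refine lt_of_le_of_lt degree_le_natDegree (Nat.cast_lt.mpr ?_)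
    refine lt_of_le_of_lt (natDegree_C_mul_le _ _) ?_
    rw [hHm.natDegree_pow, hHd]
    have := two_mul_card_kerX hC2
    omega
  have hMm : M.Monic := (hNAm.map ρ).sub_of_left hlt
  have hMd : M.natDegree = p := by
    rw [← hNd]
    exact natDegree_eq_of_degree_eq (degree_sub_eq_left_of_degree_lt hlt)
  have hrel : cubicPoly E * (DA.map ρ) ^ 2 = 4 * M ^ 3 := by
    have h := congrArg (Polynomial.map ρ) hrelA
    rw [Polynomial.map_mul, Polynomial.map_pow, map_cubicPoly] at h
    rw [h]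
    simp only [Polynomial.map_add, Polynomial.map_mul, Polynomial.map_pow, Polynomial.map_ofNat,
      map_C, ← hN, ← hH, map_mul, map_ofNat]
    rw [← WeierstrassCurve.map_b₂, ← WeierstrassCurve.map_b₄, ← WeierstrassCurve.map_b₆, he2,
      he4, he6, hM]
    simp only [map_mul, map_pow, map_neg, map_ofNat]
    ring
  have hD : DA.map ρ = derivative M * H - 2 * M * derivative H := by
    simp only [DA, Polynomial.map_sub, Polynomial.map_mul, Polynomial.map_ofNat, ← derivative_map,
      ← hN, ← hH, hM, derivative_sub, Polynomial.derivative_mul, derivative_C, derivative_pow, Nat.cast_ofNat,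
      zero_mul, zero_add, map_ofNat]
    ring
  have hroot : ∀ a, M.IsRoot a → ¬ H.IsRoot a := by
    intro a ha hHa
    rw [IsRoot.def, hH] at hHa
    simp only [hA, Polynomial.map_prod, Polynomial.map_sub, map_X, map_C, eval_prod, eval_sub,
      eval_X, eval_C, Finset.prod_eq_zero_iff, sub_eq_zero] at hHa
    obtain ⟨r, hr, rfl⟩ := hHa
    have hH0 : H.eval (ρ (redX r)) = 0 := by
      simp only [hH, hA, Polynomial.map_prod, Polynomial.map_sub, map_X, map_C, eval_prod,
        eval_sub, eval_X, eval_C]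
      exact Finset.prod_eq_zero hr (sub_self _)
    rw [IsRoot.def, hM, eval_sub, eval_mul, eval_pow, hH0, zero_pow two_ne_zero, mul_zero,
      sub_zero, hN] at ha
    simp only [NA, Polynomial.map_add, Polynomial.map_mul, Polynomial.map_pow, Polynomial.map_sum,
      map_X, Polynomial.map_sub, map_C, eval_add, eval_mul, eval_pow, eval_finsetSum, eval_sub,
      eval_X, eval_C, ← hH, hH0, zero_pow two_ne_zero, mul_zero, zero_add] at ha
    rw [Finset.sum_eq_single r] at ha
    · rcases mul_eq_zero.mp ha with h | h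
      · rw [sub_self, mul_zero, zero_add] at h
        exact hu r hr h
      · rw [sq_eq_zero_iff] at h
        simp only [hA, Polynomial.map_prod, Polynomial.map_sub, map_X, map_C, eval_prod, eval_sub,
          eval_X, eval_C, Finset.prod_eq_zero_iff, sub_eq_zero] at h
        obtain ⟨r', hr', he'⟩ := h
        exact (Finset.mem_erase.mp hr').1 (hinj r hr r' (Finset.mem_erase.mp hr').2 he').symm
    · intro j hj hjr
      rw [show eval (ρ (redX r)) ((hA ((kerX C).erase j)).map ρ) = 0 from ?_,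
        zero_pow two_ne_zero, mul_zero]
      simp only [hA, Polynomial.map_prod, Polynomial.map_sub, map_X, map_C, eval_prod, eval_sub,
        eval_X, eval_C]
      exact Finset.prod_eq_zero (Finset.mem_erase.mpr ⟨hjr.symm, hr⟩) (sub_self _)
    · exact fun h => absurd hr h
  have hG : ∀ a, (cubicPoly E).rootMultiplicity a ≤ 2 :=
    rootMultiplicity_cubicPoly_le E h2 h3
      (by rw [hE, WeierstrassCurve.map_c₄, WeierstrassCurve.map_Δ]; exact hss)
  have h0 := natDegree_cast_eq_zero h2 hMm hD hrel hG hroot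
  rw [hMd] at h0
  exact hpk h0

end Main

section Transfer

variable {K : Type*} [Field K] [CharZero K] [IsAlgClosed K] [DecidableEq K]
  {A : ValuationSubring K}

/-- The invariants of the quotient lie in the valuation ring and do not both reduce to zero. -/
theorem veluCurve_semistable {W₀ : WeierstrassCurve A} {E : Affine K} [E.IsElliptic]
    (hE : EllLocal.genCurve A W₀ = E) {C : AddSubgroup (E⁄K).Point} [Finite C] {p : ℕ}
    (hp : p.Prime) (hp2 : p ≠ 2) (hC : Nat.card C = p) (hint : ∀ r ∈ kerX C, r ∈ A)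
    {k : Type*} [Field k] [IsAlgClosed k] (ρ : A →+* k)
    (hρ : ∀ a : A, ρ a = 0 ↔ IsLocalRing.residue A a = 0) :
    ∃ c d t : A, (c : K) = (veluCurve E (kerX C)).c₄ ∧ (d : K) = (veluCurve E (kerX C)).Δ ∧
      c = W₀.c₄ + 240 * t ∧
      ((2 : k) ≠ 0 → (3 : k) ≠ 0 → (p : k) ≠ 0 → (ρ W₀.c₄ ≠ 0 ∨ ρ W₀.Δ ≠ 0) →
        ¬ (ρ c = 0 ∧ ρ d = 0)) := by
  subst hE
  refine ⟨(veluModel C).c₄, (veluModel C).Δ,
    ∑ r ∈ kerX C, (6 * redX r ^ 2 + W₀.b₂ * redX r + W₀.b₄), ?_, ?_, ?_,
    fun h2 h3 hpk hss => veluModel_semistable ρ hρ h2 h3 hp hp2 hC hpk hint hss⟩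
  · rw [← veluModel_map hint]
    exact ((veluModel C).map_c₄ A.subtype).symm
  · rw [← veluModel_map hint]
    exact ((veluModel C).map_Δ A.subtype).symm
  · simp only [veluModel, WeierstrassCurve.c₄, WeierstrassCurve.b₂, WeierstrassCurve.b₄]
    ring

end Transfer

end FLTAgent.Isog
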