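import Fermat.Agent.Isog.Rational
import Fermat.Agent.Isog.Semistable
import Fermat.Agent.EllP.NodeBridge
import Fermat.Agent.EllLocal.Semistable
import Fermat.Agent.EllP.Stable
import Fermat.Agent.EllTorsion.Galois

/-!
# The quotient of a semistable integral model by a stable subgroup of prime order

Main result `exists_quotient`: for an odd prime `p`, an integral Weierstrass model semistable
away from `p` (with `c₄` a unit at `2` and `3` when these differ from `p`) and a Galois stable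
subgroup `C` of order `p`, there are an integral model `W'` with the same properties and a
Galois equivariant homomorphism on geometric points with kernel exactly `C`. It is Vélu's
isogeny, whose coefficients are rational by invariance, rescaled to an integral model.
-/

set_option autoImplicit false

noncomputable section

open WeierstrassCurve WeierstrassCurve.Affine.Point
open scoped WeierstrassCurve.Affine

namespace FLTAgent.Isog

local notation "Qb" => AlgebraicClosure ℚ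
local notation "GQ" => (AlgebraicClosure ℚ ≃ₐ[ℚ] AlgebraicClosure ℚ)

/-- An integral model is semistable away from `p`. -/
def SemistableAway (W : WeierstrassCurve ℤ) (p : ℕ) : Prop :=
  ∀ l : ℕ, l.Prime → l ≠ p → ¬ ((l : ℤ) ∣ W.Δ ∧ (l : ℤ) ∣ W.c₄)

/-- The base change to `ℚ̄` of an integral model. -/
abbrev qbCurve (W : WeierstrassCurve ℤ) : Affine Qb :=
  ((W.map (Int.castRingHom ℚ)).map (algebraMap ℚ Qb)).toAffine

/-- A point of an integral model as a point of its base change. -/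
def ofQPoint {W : WeierstrassCurve ℤ} : EllP.QPoint W ≃+ ((qbCurve W)⁄Qb).Point :=
  AddEquiv.refl _

theorem intCast_c₄ (W : WeierstrassCurve ℤ) : (W.c₄ : Qb) = (qbCurve W).c₄ := by
  simp [qbCurve, WeierstrassCurve.map_c₄]

theorem intCast_Δ (W : WeierstrassCurve ℤ) : (W.Δ : Qb) = (qbCurve W).Δ := by
  simp [qbCurve, WeierstrassCurve.map_Δ]

theorem algebraMap_mul_den (r : ℚ) : algebraMap ℚ Qb r * (r.den : Qb) = (r.num : Qb) := by
  have := congrArg (algebraMap ℚ Qb) r.mul_den_eq_num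
  rwa [map_mul, map_natCast, map_intCast] at this

/-- A rational number integral at a place over `l` has denominator prime to `l`. -/
theorem not_dvd_den {l : ℕ} (hl : l.Prime) {A : ValuationSubring Qb} (hA : A.LiesOverPrime l)
    {r : ℚ} (hr : algebraMap ℚ Qb r ∈ A) : ¬ l ∣ r.den := by
  intro h
  have hden : (r.den : Qb) ∈ A.nonunits :=
    (GalCommon.natCast_mem_nonunits_iff hl hA _).mpr h
  have hnum : (r.num : Qb) ∈ A.nonunits := by
    rw [← algebraMap_mul_den, ValuationSubring.mem_nonunits_iff, map_mul]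
    exact lt_of_le_of_lt (mul_le_of_le_one_left' ((A.valuation_le_one_iff _).mpr hr)) hden
  have h1 := Int.natCast_dvd.mp ((GalCommon.intCast_mem_nonunits_iff hl hA _).mp hnum)
  exact hl.ne_one (Nat.eq_one_of_dvd_coprimes r.reduced h1 h)

theorem qbCurve_fixed (W : WeierstrassCurve ℤ) (σ : GQ) :
    (qbCurve W).map (σ.toRingEquiv).toRingHom = qbCurve W := by
  show ((W.map (Int.castRingHom ℚ)).map (algebraMap ℚ Qb)).map _ = _
  rw [WeierstrassCurve.map_map, WeierstrassCurve.map_map]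
  refine (congrArg W.map (RingHom.ext_int _ _)).trans (W.map_map _ _).symm

variable {W : WeierstrassCurve ℤ} (C : AddSubgroup ((qbCurve W)⁄Qb).Point) [Finite C]

/-- Galois stability of the subgroup. -/
def Stable : Prop := ∀ σ : GQ, ∀ P : EllP.QPoint W, ofQPoint P ∈ C → ofQPoint (σ • P) ∈ C

variable {C}

theorem mem_kerX_iff_smul (h : Stable C) (σ : GQ) (r : Qb) : r ∈ kerX C ↔ σ r ∈ kerX C := by
  have key : ∀ (σ : GQ) (r : Qb), r ∈ kerX C → σ r ∈ kerX C := by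
    intro σ r hr
    obtain ⟨R, hR, hR0, rfl⟩ := (mem_kerX C).mp hr
    rcases R with _ | ⟨x, y, hxy⟩
    · exact absurd rfl hR0
    obtain ⟨h', e⟩ := EllP.smul_some_qbar (W := W) σ hxy
    refine (mem_kerX C).mpr ⟨ofQPoint (Affine.Point.some (σ x) (σ y) h' : EllP.QPoint W), ?_,
      Affine.Point.some_ne_zero h', rfl⟩
    rw [← e]
    exact h σ _ hR
  exact ⟨key σ r, fun h' => by simpa using key σ⁻¹ _ h'⟩

theorem kerX_mem {p : ℕ} (hp : p.Prime) (hC : Nat.card C = p) {l : ℕ} (hl : l.Prime) (hlp : l ≠ p)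
    {A : ValuationSubring Qb} (hA : A.LiesOverPrime l) : ∀ r ∈ kerX C, r ∈ A := by
  intro r hr
  obtain ⟨R, hR, hR0, rfl⟩ := (mem_kerX C).mp hr
  by_contra hout
  apply hR0
  obtain ⟨R', rfl⟩ := (ofQPoint (W := W)).surjective R
  have h1 : EllP.toModel A R' ∈ EllLocal.E1 A (EllP.modelAt A W) := by
    refine (EllP.mem_E1_iff A).mpr ?_
    cases R' with
    | zero => exact Or.inl rfl
    | some x y h => exact Or.inr hout
  rw [map_eq_zero_iff _ (ofQPoint (W := W)).injective]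
  refine (EllP.toModel A).injective ((EllLocal.eq_zero_of_nsmul_eq_zero h1
    (EllP.natCast_residue_ne_zero hl hA hp hlp) ?_).trans (_root_.map_zero _).symm)
  rw [← map_nsmul]
  have h2 : p • (⟨_, hR⟩ : C) = 0 := hC ▸ card_nsmul_eq_zero'
  have h3 : ofQPoint (p • R') = 0 := by
    rw [map_nsmul]
    exact congrArg Subtype.val h2
  rw [(map_eq_zero_iff _ (ofQPoint (W := W)).injective).mp h3, _root_.map_zero]

omit [Finite C] in
theorem coeff_mem (W : WeierstrassCurve ℤ) (A : ValuationSubring Qb) :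
    (qbCurve W).b₂ ∈ A ∧ (qbCurve W).b₄ ∈ A ∧ (qbCurve W).b₆ ∈ A := by
  refine ⟨?_, ?_, ?_⟩ <;>
    simp [qbCurve, WeierstrassCurve.map_b₂, WeierstrassCurve.map_b₄, WeierstrassCurve.map_b₆,
      intCast_mem]

theorem veluT_mem {A : ValuationSubring Qb} (hI : ∀ r ∈ kerX C, r ∈ A) :
    veluT (qbCurve W) (kerX C) ∈ A ∧ veluW (qbCurve W) (kerX C) ∈ A := by
  obtain ⟨b2, b4, b6⟩ := coeff_mem W A
  have h2 : (2 : Qb) ∈ A := natCast_mem A 2
  have h4 : (4 : Qb) ∈ A := natCast_mem A 4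
  have h6 : (6 : Qb) ∈ A := natCast_mem A 6
  have ht : ∀ r ∈ kerX C, tR (qbCurve W) r ∈ A := fun r hr =>
    add_mem (add_mem (mul_mem h6 (pow_mem (hI r hr) 2)) (mul_mem b2 (hI r hr))) b4
  have hu : ∀ r ∈ kerX C, uR (qbCurve W) r ∈ A := fun r hr =>
    add_mem (add_mem (add_mem (mul_mem h4 (pow_mem (hI r hr) 3)) (mul_mem b2 (pow_mem (hI r hr) 2)))
      (mul_mem (mul_mem h2 b4) (hI r hr))) b6
  exact ⟨A.toSubring.sum_mem ht,
    A.toSubring.sum_mem fun r hr => add_mem (hu r hr) (mul_mem (hI r hr) (ht r hr))⟩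

omit [Finite C] in
/-- The integral model of a curve with coefficients of the shape of Vélu's. -/
theorem exists_model (W : WeierstrassCurve ℤ) (S : Finset Qb) (qt qw : ℚ)
    (hqt : algebraMap ℚ Qb qt = veluT (qbCurve W) S)
    (hqw : algebraMap ℚ Qb qw = veluW (qbCurve W) S) :
    ∃ (W' : WeierstrassCurve ℤ) (u : Qbˣ), ((u⁻¹ : Qbˣ) : Qb) = ((qt.den * qw.den : ℕ) : Qb) ∧
      (⟨u, 0, 0, 0⟩ : VariableChange Qb) • veluCurve (qbCurve W) S = qbCurve W' := by
  set u : ℕ := qt.den * qw.den with hu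
  have hu0 : (u : Qb) ≠ 0 := Nat.cast_ne_zero.mpr (mul_ne_zero qt.den_nz qw.den_nz)
  refine ⟨⟨W.a₁ * u, W.a₂ * u ^ 2, W.a₃ * u ^ 3,
    W.a₄ * u ^ 4 - 5 * u ^ 3 * qw.den * qt.num,
    W.a₆ * u ^ 6 - W.b₂ * u ^ 5 * qw.den * qt.num - 7 * u ^ 5 * qt.den * qw.num⟩,
    (Units.mk0 (u : Qb) hu0)⁻¹, by simp, ?_⟩
  have ht : veluT (qbCurve W) S * (qt.den : Qb) = (qt.num : Qb) := hqt ▸ algebraMap_mul_den qt
  have hw : veluW (qbCurve W) S * (qw.den : Qb) = (qw.num : Qb) := hqw ▸ algebraMap_mul_den qw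
  have hb₂ : (qbCurve W).b₂ = (W.b₂ : Qb) := by simp [qbCurve, WeierstrassCurve.map_b₂]
  have hu' : (u : Qb) = (qt.den : Qb) * (qw.den : Qb) := by rw [hu, Nat.cast_mul]
  ext <;> simp only [variableChange_def, veluCurve, hb₂] <;>
    simp only [qbCurve, WeierstrassCurve.map_a₁, WeierstrassCurve.map_a₂, WeierstrassCurve.map_a₃,
      WeierstrassCurve.map_a₄, WeierstrassCurve.map_a₆, eq_intCast, map_intCast, map_natCast,
      inv_inv, Units.val_mk0, map_mul, map_pow, map_sub, map_ofNat, mul_zero, add_zero, sub_zero,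
      zero_mul]
  · ring
  · ring
  · ring
  · linear_combination -5 * (u : Qb) ^ 3 * (qw.den : Qb) * ht +
      (-5 * (u : Qb) ^ 3 * veluT (qbCurve W) S) * hu'
  · linear_combination -(W.b₂ : Qb) * (u : Qb) ^ 5 * (qw.den : Qb) * ht
      - 7 * (u : Qb) ^ 5 * (qt.den : Qb) * hw
      - ((W.b₂ : Qb) * veluT (qbCurve W) S + 7 * veluW (qbCurve W) S) * (u : Qb) ^ 5 * hu'

variable (hC2 : ∀ P ∈ C, P + P = 0 → P = 0) [(qbCurve W).IsElliptic]

/-- The isogeny to an integral model. -/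
def modelMap {W' : WeierstrassCurve ℤ} (Cv : VariableChange Qb)
    (h : Cv • veluCurve (qbCurve W) (kerX C) = qbCurve W') : EllP.QPoint W →+ EllP.QPoint W' :=
  (EllLocal.castPoint h).comp ((EllLocal.vcPoint (veluCurve (qbCurve W) (kerX C)) Cv).comp
    (veluHom C hC2 : EllP.QPoint W →+ (veluCurve (qbCurve W) (kerX C)).Point))

theorem ker_modelMap {W' : WeierstrassCurve ℤ} (Cv : VariableChange Qb)
    (h : Cv • veluCurve (qbCurve W) (kerX C) = qbCurve W') (P : EllP.QPoint W) :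
    modelMap hC2 Cv h P = 0 ↔ ofQPoint P ∈ C := by
  change EllLocal.castPoint h (EllLocal.vcPoint _ Cv (veluHom C hC2 (ofQPoint P))) = 0 ↔ _
  rw [← (EllLocal.castPoint h).map_zero, (EllLocal.castPoint_injective h).eq_iff]
  erw [EllLocal.vcPoint_eq_zero]
  exact SetLike.ext_iff.mp (ker_veluHom hC2) (ofQPoint P)

theorem modelMap_some {W' : WeierstrassCurve ℤ} (Cv : VariableChange Qb)
    (h : Cv • veluCurve (qbCurve W) (kerX C) = qbCurve W') {x y : Qb}
    (hxy : ((W.map (Int.castRingHom ℚ))⁄Qb).toAffine.Nonsingular x y)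
    (hx : ∀ r ∈ kerX C, x ≠ algebraMap Qb Qb r) :
    ∃ hn, modelMap hC2 Cv h (Affine.Point.some x y hxy : EllP.QPoint W) =
      (Affine.Point.some (EllLocal.vcX Cv (vX (qbCurve W) (kerX C) Qb x))
        (EllLocal.vcY Cv (vX (qbCurve W) (kerX C) Qb x) (vY C x y)) hn : EllP.QPoint W') := by
  have hn₀ : (veluCurve (qbCurve W) (kerX C)).Nonsingular (vX (qbCurve W) (kerX C) Qb x)
      (vY C x y) := nonsingular_vX_vY hC2 hxy hx
  have hn : (qbCurve W').Nonsingular (EllLocal.vcX Cv (vX (qbCurve W) (kerX C) Qb x))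
      (EllLocal.vcY Cv (vX (qbCurve W) (kerX C) Qb x) (vY C x y)) :=
    h ▸ EllLocal.nonsingular_vc Cv hn₀
  refine ⟨hn, ?_⟩
  change EllLocal.castPoint h (EllLocal.vcPoint _ Cv (vMap hC2 (.some x y hxy))) = _
  rw [vMap_some hC2 _ hx]
  erw [EllLocal.vcPoint_some, EllLocal.castPoint_some]
  rfl

theorem modelMap_of_kerX {W' : WeierstrassCurve ℤ} (Cv : VariableChange Qb)
    (h : Cv • veluCurve (qbCurve W) (kerX C) = qbCurve W') {x y : Qb}
    (hxy : ((W.map (Int.castRingHom ℚ))⁄Qb).toAffine.Nonsingular x y)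
    (hx : ¬ ∀ r ∈ kerX C, x ≠ algebraMap Qb Qb r) :
    modelMap hC2 Cv h (Affine.Point.some x y hxy : EllP.QPoint W) = 0 := by
  have h0 : veluHom C hC2 (Affine.Point.some x y hxy : EllP.QPoint W) = 0 := dif_neg hx
  refine (congrArg (fun P => EllLocal.castPoint h (EllLocal.vcPoint _ Cv P)) h0).trans ?_
  exact (congrArg (EllLocal.castPoint h) (_root_.map_zero _)).trans (_root_.map_zero _)

theorem modelMap_smul (hst : Stable C) {W' : WeierstrassCurve ℤ} (u : Qbˣ) {n : ℕ}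
    (hu : ((u⁻¹ : Qbˣ) : Qb) = n)
    (h : (⟨u, 0, 0, 0⟩ : VariableChange Qb) • veluCurve (qbCurve W) (kerX C) = qbCurve W')
    (σ : GQ) (P : EllP.QPoint W) :
    modelMap hC2 _ h (σ • P) = σ • modelMap hC2 _ h P := by
  rcases P with _ | ⟨x, y, hxy⟩
  · rw [← Affine.Point.zero_def, smul_zero (A := EllP.QPoint W) σ, _root_.map_zero,
      smul_zero (A := EllP.QPoint W') σ]
  obtain ⟨h', hσP⟩ := EllP.smul_some_qbar σ hxy
  rw [hσP]
  have hiff : (∀ r ∈ kerX C, x ≠ algebraMap Qb Qb r) ↔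
      (∀ r ∈ kerX C, σ x ≠ algebraMap Qb Qb r) := by
    constructor
    · intro hx r hr e
      exact hx (σ⁻¹ r) ((mem_kerX_iff_smul hst σ⁻¹ r).mp hr)
        (by simpa using congrArg (σ⁻¹ : GQ) e)
    · intro hx r hr e
      exact hx (σ r) ((mem_kerX_iff_smul hst σ r).mp hr) (congrArg σ e)
  by_cases hx : ∀ r ∈ kerX C, x ≠ algebraMap Qb Qb r
  · obtain ⟨hn, e⟩ := modelMap_some hC2 _ h hxy hx
    obtain ⟨hn', e'⟩ := modelMap_some hC2 _ h h' (hiff.mp hx)
    obtain ⟨hn'', he⟩ := EllP.smul_some_qbar (W := W') σ hn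
    rw [e, e', he]
    have hvX := map_vX (σ := σ.toRingEquiv) (qbCurve_fixed W σ) (mem_kerX_iff_smul hst σ) x
    have hvY := map_vY (σ := σ.toRingEquiv) (qbCurve_fixed W σ) (mem_kerX_iff_smul hst σ) x y
    simp only [AlgEquiv.coe_ringEquiv] at hvX hvY
    simp only [EllLocal.vcX, EllLocal.vcY, hu, sub_zero, zero_mul, map_mul, map_pow, map_natCast,
      hvX, hvY]
  · rw [modelMap_of_kerX hC2 _ h hxy hx, modelMap_of_kerX hC2 _ h h' (mt hiff.mpr hx),
      smul_zero (A := EllP.QPoint W') σ]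

/-- The local statement at `l ≠ p`. -/
theorem quotient_local {p : ℕ} (hp : p.Prime) (hp2 : p ≠ 2) (hC : Nat.card C = p)
    (hss : SemistableAway W p) (h23 : ∀ l : ℕ, l = 2 ∨ l = 3 → l ≠ p → ¬ (l : ℤ) ∣ W.c₄)
    {W' : WeierstrassCurve ℤ} {u : ℕ}
    (hc₄ : (W'.c₄ : Qb) = (u : Qb) ^ 4 * (veluCurve (qbCurve W) (kerX C)).c₄)
    (hΔ : (W'.Δ : Qb) = (u : Qb) ^ 12 * (veluCurve (qbCurve W) (kerX C)).Δ)
    {l : ℕ} (hl : l.Prime) (hlp : l ≠ p) (hlu : ¬ l ∣ u) :
    ¬ ((l : ℤ) ∣ W'.Δ ∧ (l : ℤ) ∣ W'.c₄) ∧ (l = 2 ∨ l = 3 → ¬ (l : ℤ) ∣ W'.c₄) := by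
  obtain ⟨A, hA⟩ := GalCommon.exists_liesOverPrime hl
  let κ := IsLocalRing.ResidueField A
  let ρ : A →+* AlgebraicClosure κ :=
    (algebraMap κ (AlgebraicClosure κ)).comp (IsLocalRing.residue A)
  have hρ : ∀ a : A, ρ a = 0 ↔ IsLocalRing.residue A a = 0 := fun a =>
    map_eq_zero_iff _ (algebraMap κ (AlgebraicClosure κ)).injective
  obtain ⟨c, d, t, hc, hd, hct, himp⟩ := veluCurve_semistable (E := qbCurve W)
    (EllP.genCurve_modelAt A W) (C := C) hp hp2 hC (kerX_mem hp hC hl hlp hA) ρ hρ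
  have hρn : ∀ n : ℕ, ρ (n : A) = 0 ↔ l ∣ n := fun n => by
    rw [hρ, map_natCast, GalCommon.natCast_residue_eq_zero_iff hl hA]
  have hρz : ∀ n : ℤ, ρ (n : A) = 0 ↔ (l : ℤ) ∣ n := fun n => by
    rw [hρ, ← GalCommon.coe_mem_nonunits_iff_residue, ← GalCommon.intCast_mem_nonunits_iff hl hA]
    simp
  have hcW : ((W'.c₄ : ℤ) : A) = ((u : ℕ) : A) ^ 4 * c := by
    apply Subtype.ext
    push_cast
    rw [hc₄, hc]
  have hdW : ((W'.Δ : ℤ) : A) = ((u : ℕ) : A) ^ 12 * d := by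
    apply Subtype.ext
    push_cast
    rw [hΔ, hd]
  have hcz : (l : ℤ) ∣ W'.c₄ → ρ c = 0 := fun h => by
    rw [← hρz, hcW, map_mul, map_pow, mul_eq_zero] at h
    exact h.resolve_left (pow_ne_zero 4 (mt (hρn u).mp hlu))
  have hdz : (l : ℤ) ∣ W'.Δ → ρ d = 0 := fun h => by
    rw [← hρz, hdW, map_mul, map_pow, mul_eq_zero] at h
    exact h.resolve_left (pow_ne_zero 12 (mt (hρn u).mp hlu))
  have hsrc : (EllP.modelAt A W).c₄ = ((W.c₄ : ℤ) : A) ∧
      (EllP.modelAt A W).Δ = ((W.Δ : ℤ) : A) := ⟨W.map_c₄ _, W.map_Δ _⟩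
  have h23' : l = 2 ∨ l = 3 → ¬ (l : ℤ) ∣ W'.c₄ := by
    intro hl23 h
    apply h23 l hl23 hlp
    have h240 : ρ ((240 : ℕ) : A) = 0 :=
      (hρn 240).mpr (by rcases hl23 with rfl | rfl <;> norm_num)
    have h' := hcz h
    rw [hct, map_add, map_mul, show (240 : A) = ((240 : ℕ) : A) from rfl, h240, zero_mul,
      add_zero, hsrc.1, hρz] at h'
    exact h'
  refine ⟨fun ⟨h1, h2⟩ => ?_, h23'⟩
  by_cases hl23 : l = 2 ∨ l = 3
  · exact h23' hl23 h2
  push Not at hl23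
  have hne : ∀ n : ℕ, n.Prime → l ≠ n → ((n : ℕ) : AlgebraicClosure κ) ≠ 0 := fun n hn hln h =>
    hln ((Nat.prime_dvd_prime_iff_eq hl hn).mp ((hρn n).mp (by rw [map_natCast]; exact h)))
  refine himp (by exact_mod_cast hne 2 Nat.prime_two hl23.1)
    (by exact_mod_cast hne 3 Nat.prime_three hl23.2) (hne p hp hlp) ?_ ⟨hcz h2, hdz h1⟩
  rw [hsrc.1, hsrc.2]
  by_contra hcon
  push Not at hcon
  exact hss l hl hlp ⟨(hρz _).mp hcon.2, (hρz _).mp hcon.1⟩

omit [Finite C] [(qbCurve W).IsElliptic] in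
/-- **The isogeny with kernel a stable subgroup of order `p`**, with a model of the quotient that
is still semistable away from `p`. -/
theorem exists_quotient {p : ℕ} (hp : p.Prime) (hp2 : p ≠ 2) (W : WeierstrassCurve ℤ)
    (hΔ : W.Δ ≠ 0) (hss : SemistableAway W p) (h23 : ∀ l : ℕ, l = 2 ∨ l = 3 → l ≠ p →
      ¬ (l : ℤ) ∣ W.c₄) (C : AddSubgroup (EllP.QPoint W))
    (hC : Nat.card C = p) (hstab : ∀ σ : GQ, ∀ P ∈ C, σ • P ∈ C) :
    ∃ (W' : WeierstrassCurve ℤ) (φ : EllP.QPoint W →+ EllP.QPoint W'),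
      W'.Δ ≠ 0 ∧ (∀ (σ : GQ) (P : EllP.QPoint W), φ (σ • P) = σ • φ P) ∧ φ.ker = C ∧
        SemistableAway W' p ∧
        ∀ l : ℕ, l = 2 ∨ l = 3 → l ≠ p → ¬ (l : ℤ) ∣ W'.c₄ := by
  have : (W.map (Int.castRingHom ℚ)).IsElliptic := EllTorsion.isElliptic_map_rat hΔ
  have : (qbCurve W).IsElliptic :=
    inferInstanceAs ((W.map (Int.castRingHom ℚ)).map (algebraMap ℚ Qb)).IsElliptic
  let C₁ : AddSubgroup ((qbCurve W)⁄Qb).Point := C
  have : Finite C₁ :=
    (Nat.finite_of_card_ne_zero (by rw [hC]; exact hp.ne_zero) : Finite C)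
  have hC1 : Nat.card C₁ = p := hC
  have hC2 : ∀ P ∈ C₁, P + P = 0 → P = 0 := by
    intro P hP h
    have h1 := addOrderOf_dvd_natCard (⟨P, hP⟩ : C₁)
    rw [hC1, AddSubgroup.addOrderOf_mk] at h1
    have h2 : addOrderOf P ∣ 2 := addOrderOf_dvd_of_nsmul_eq_zero (by rwa [two_nsmul])
    rw [← AddMonoid.addOrderOf_eq_one_iff]
    exact Nat.dvd_one.mp
      (((Nat.coprime_primes hp Nat.prime_two).mpr hp2) ▸ Nat.dvd_gcd h1 h2)
  have hst : Stable C₁ := hstab
  obtain ⟨qt, hqt⟩ := GalCommon.exists_rat_of_fixed fun σ : GQ =>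
    map_veluT (σ := σ.toRingEquiv) (qbCurve_fixed W σ) (mem_kerX_iff_smul hst σ)
  obtain ⟨qw, hqw⟩ := GalCommon.exists_rat_of_fixed fun σ : GQ =>
    map_veluW (σ := σ.toRingEquiv) (qbCurve_fixed W σ) (mem_kerX_iff_smul hst σ)
  obtain ⟨W', u, hu, hWV⟩ := exists_model W (kerX C₁) qt qw hqt hqw
  have hΔ' : (W'.Δ : Qb) = ((qt.den * qw.den : ℕ) : Qb) ^ 12 *
      (veluCurve (qbCurve W) (kerX C₁)).Δ := by
    rw [intCast_Δ, ← hWV, variableChange_Δ, hu]
  have hc₄' : (W'.c₄ : Qb) = ((qt.den * qw.den : ℕ) : Qb) ^ 4 *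
      (veluCurve (qbCurve W) (kerX C₁)).c₄ := by
    rw [intCast_c₄, ← hWV, variableChange_c₄, hu]
  have hloc : ∀ l : ℕ, l.Prime → l ≠ p →
      ¬ ((l : ℤ) ∣ W'.Δ ∧ (l : ℤ) ∣ W'.c₄) ∧ (l = 2 ∨ l = 3 → ¬ (l : ℤ) ∣ W'.c₄) := by
    intro l hl hlp
    refine quotient_local hp hp2 hC1 hss h23 hc₄' hΔ' hl hlp ?_
    obtain ⟨A, hA⟩ := GalCommon.exists_liesOverPrime hl
    obtain ⟨ht, hw⟩ := veluT_mem (kerX_mem hp hC1 hl hlp hA)
    rw [hl.dvd_mul, not_or]
    exact ⟨not_dvd_den hl hA (hqt ▸ ht), not_dvd_den hl hA (hqw ▸ hw)⟩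
  refine ⟨W', modelMap hC2 _ hWV, ?_, modelMap_smul hC2 hst u hu hWV, ?_,
    fun l hl hlp => (hloc l hl hlp).1,
    fun l hl23 hlp => (hloc l (by rcases hl23 with rfl | rfl <;> norm_num) hlp).2 hl23⟩
  · intro h
    rw [h, Int.cast_zero] at hΔ'
    exact veluCurve_Δ_ne_zero hC2 ((mul_eq_zero.mp hΔ'.symm).resolve_left
      (pow_ne_zero 12 (Nat.cast_ne_zero.mpr (mul_ne_zero qt.den_nz qw.den_nz))))
  · ext P
    exact ker_modelMap hC2 _ hWV P

end FLTAgent.Isog
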