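import Fermat.Agent.Isog.Hom

/-!
# Vélu's map commutes with automorphisms fixing the curve and the kernel

If `σ` fixes the coefficients of `W` and permutes the kernel abscissae, then it fixes `veluT`,
`veluW` and commutes with `vX`, `vDX`, `vY` (`map_veluT`, `map_veluW`, `map_vX`, `map_vY`).
This is what makes the quotient rational and the isogeny Galois equivariant.
-/

set_option autoImplicit false

noncomputable section

open WeierstrassCurve WeierstrassCurve.Affine
open scoped WeierstrassCurve.Affine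

namespace FLTAgent.Isog

variable {K : Type*} [Field K] {W : Affine K} {S : Finset K} {σ : K ≃+* K}

theorem map_b₂_of_fixed (hσ : W.map σ.toRingHom = W) : σ W.b₂ = W.b₂ := by
  conv_rhs => rw [← hσ, WeierstrassCurve.map_b₂]
  rfl

theorem map_b₄_of_fixed (hσ : W.map σ.toRingHom = W) : σ W.b₄ = W.b₄ := by
  conv_rhs => rw [← hσ, WeierstrassCurve.map_b₄]
  rfl

theorem map_b₆_of_fixed (hσ : W.map σ.toRingHom = W) : σ W.b₆ = W.b₆ := by
  conv_rhs => rw [← hσ, WeierstrassCurve.map_b₆]
  rfl

theorem map_tR (hσ : W.map σ.toRingHom = W) (r : K) : σ (tR W r) = tR W (σ r) := by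
  simp only [tR, map_add, map_mul, map_pow, map_ofNat, map_b₂_of_fixed hσ, map_b₄_of_fixed hσ]

theorem map_uR (hσ : W.map σ.toRingHom = W) (r : K) : σ (uR W r) = uR W (σ r) := by
  simp only [uR, map_add, map_mul, map_pow, map_ofNat, map_b₂_of_fixed hσ, map_b₄_of_fixed hσ,
    map_b₆_of_fixed hσ]

variable (hσ : W.map σ.toRingHom = W) (hS : ∀ r, r ∈ S ↔ σ r ∈ S)

include hσ hS

theorem map_veluT : σ (veluT W S) = veluT W S := by
  rw [veluT, map_sum]
  exact Finset.sum_equiv σ.toEquiv hS fun r _ => map_tR hσ r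

theorem map_veluW : σ (veluW W S) = veluW W S := by
  rw [veluW, map_sum]
  refine Finset.sum_equiv σ.toEquiv hS fun r _ => ?_
  rw [map_add, map_mul, map_uR hσ, map_tR hσ]
  rfl

theorem map_vX (x : K) : σ (vX W S K x) = vX W S K (σ x) := by
  simp only [vX, map_add, map_sum, Algebra.algebraMap_self, RingHom.id_apply]
  refine congrArg _ (Finset.sum_equiv σ.toEquiv hS fun r _ => ?_)
  simp only [map_mul, map_pow, map_inv₀, map_sub, map_tR hσ, map_uR hσ, RingEquiv.toEquiv_eq_coe,
    RingEquiv.coe_toEquiv]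

theorem map_vDX (x : K) : σ (vDX W S K x) = vDX W S K (σ x) := by
  simp only [vDX, map_add, map_one, map_sum, Algebra.algebraMap_self, RingHom.id_apply]
  refine congrArg _ (Finset.sum_equiv σ.toEquiv hS fun r _ => ?_)
  simp only [map_sub, map_neg, map_mul, map_pow, map_inv₀, map_ofNat, map_tR hσ, map_uR hσ,
    RingEquiv.toEquiv_eq_coe, RingEquiv.coe_toEquiv]

omit hS hσ in
theorem map_vY [DecidableEq K] {C : AddSubgroup (W⁄K).Point} [Finite C]
    (hσ : W.map σ.toRingHom = W) (hS : ∀ r, r ∈ kerX C ↔ σ r ∈ kerX C) (x y : K) :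
    σ (vY C x y) = vY C (σ x) (σ y) := by
  have h1 : σ W.a₁ = W.a₁ := congrArg WeierstrassCurve.a₁ hσ
  have h3 : σ W.a₃ = W.a₃ := congrArg WeierstrassCurve.a₃ hσ
  simp only [vY, psiTwo, bc_a₁, bc_a₃, Algebra.algebraMap_self, RingHom.id_apply, map_div₀,
    map_sub, map_add, map_mul, map_ofNat, map_vDX hσ hS, map_vX hσ hS, h1, h3]

end FLTAgent.Isog
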