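import Mathlib

/-!
# A point in general position on a Weierstrass curve, with coordinates in Laurent series

For an elliptic curve over a field `K` of characteristic zero we build a point `genPoint` over
`LSer K` (Laurent series in `s`, with `K` acting by constants) with abscissa `s⁻²`, the
derivation `dLS = d/ds` and the valuation ring `serRing` of power series. The ordinate exists
because a power series with constant term `1` is a square (`exists_sq_eq`), and a series with
zero derivative is constant (`eq_const_of_dLS_eq_zero`). This point stands in for a generic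
point in the proofs of Vélu's formulas.
-/

set_option autoImplicit false

noncomputable section

open WeierstrassCurve WeierstrassCurve.Affine
open scoped WeierstrassCurve.Affine

namespace FLTAgent.Isog

variable {K : Type*} [Field K]

local notation "LS" => LaurentSeries K
local notation "single" => HahnSeries.single (Γ := ℤ) (R := K)

/-- Multiplying by a monomial shifts coefficients. -/
theorem coeff_single_one_mul (m n : ℤ) (r : K) (f : LS) :
    (single m r * f).coeff n = r * f.coeff (n - m) := by
  conv_lhs => rw [← sub_add_cancel n m]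
  exact HahnSeries.coeff_single_mul_add ..

theorem derivative_coeff (f : LS) (n : ℤ) :
    (LaurentSeries.derivative K f).coeff n = ((n + 1 : ℤ) : K) * f.coeff (n + 1) := by
  simp [LaurentSeries.derivative, zsmul_eq_mul]

theorem derivative_single_mul_coe (m : ℤ) (p : PowerSeries K) :
    LaurentSeries.derivative K (single m 1 * (p : LS)) =
      single (m - 1) (m : K) * (p : LS) + single m 1 * ((PowerSeries.derivative K p : PowerSeries K) : LS) := by
  refine HahnSeries.ext ?_
  funext n
  rw [derivative_coeff, HahnSeries.coeff_add', Pi.add_apply, coeff_single_one_mul,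
    coeff_single_one_mul, coeff_single_one_mul, PowerSeries.coeff_coe, PowerSeries.coeff_coe,
    PowerSeries.coeff_coe, show n + 1 - m = n - (m - 1) by ring, one_mul, one_mul]
  rcases lt_trichotomy (n - (m - 1)) 0 with h | h | h
  · rw [if_pos h, if_pos (show n - m < 0 by omega)]
    simp
  · rw [if_neg (show ¬ n - (m - 1) < 0 by omega), if_pos (show n - m < 0 by omega), show n + 1 = m by omega]
    simp
  · rw [if_neg (show ¬ n - (m - 1) < 0 by omega), if_neg (show ¬ n - m < 0 by omega), PowerSeries.coeff_derivative,
      show (n - (m - 1)).natAbs = (n - m).natAbs + 1 by omega]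
    have hc : ((n + 1 : ℤ) : K) = (m : K) + (((n - m).natAbs : ℕ) : K) + 1 := by
      rw [show n + 1 = m + ((n - m).natAbs : ℤ) + 1 by omega, Int.cast_add, Int.cast_add,
        Int.cast_natCast, Int.cast_one]
    rw [hc]
    ring

theorem exists_single_mul_coe (f : LS) : ∃ (m : ℤ) (p : PowerSeries K), f = single m 1 * (p : LS) :=
  ⟨f.order, f.powerSeriesPart, (LaurentSeries.single_order_mul_powerSeriesPart f).symm⟩

theorem derivative_mul (f g : LS) :
    LaurentSeries.derivative K (f * g) =
      f * LaurentSeries.derivative K g + g * LaurentSeries.derivative K f := by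
  obtain ⟨m, p, rfl⟩ := exists_single_mul_coe f
  obtain ⟨n, q, rfl⟩ := exists_single_mul_coe g
  have e : single m 1 * (p : LS) * (single n 1 * (q : LS)) =
      single (m + n) 1 * ((p * q : PowerSeries K) : LS) := by
    have h : single m (1 : K) * single n 1 = single (m + n) 1 := by simp
    rw [PowerSeries.coe_mul, ← h]
    ring
  rw [e, derivative_single_mul_coe, derivative_single_mul_coe, derivative_single_mul_coe,
    Derivation.leibniz, PowerSeries.coe_add, smul_eq_mul, smul_eq_mul, PowerSeries.coe_mul,
    PowerSeries.coe_mul, PowerSeries.coe_mul]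
  have h1 : single (m + n - 1) ((m + n : ℤ) : K) =
      single m 1 * single (n - 1) (n : K) + single (m - 1) (m : K) * single n 1 := by
    simp only [HahnSeries.single_mul_single, one_mul, mul_one, show m - 1 + n = m + n - 1 by ring,
      show m + (n - 1) = m + n - 1 by ring, Int.cast_add]
    ext k
    rcases eq_or_ne k (m + n - 1) with h | h <;> simp [h, add_comm]
  have h2 : single (m + n) (1 : K) = single m 1 * single n 1 := by simp
  rw [h1, h2]
  ring

/-- The coefficients of the square root of a power series with constant term `1`. -/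
def sqrtCoeff (a : PowerSeries K) : ℕ → K
  | 0 => 1
  | n + 1 => (PowerSeries.coeff (n + 1) a -
      ∑ i : Fin n, sqrtCoeff a (i + 1) * sqrtCoeff a (n - i)) / 2
decreasing_by all_goals omega

theorem exists_sq_eq [CharZero K] (a : PowerSeries K) (ha : PowerSeries.constantCoeff a = 1) :
    ∃ S : PowerSeries K, S ^ 2 = a ∧ PowerSeries.constantCoeff S = 1 := by
  refine ⟨PowerSeries.mk (sqrtCoeff a), ?_, by rw [← PowerSeries.coeff_zero_eq_constantCoeff_apply, PowerSeries.coeff_mk, sqrtCoeff]⟩
  ext n
  rw [pow_two, PowerSeries.coeff_mul, Finset.Nat.sum_antidiagonal_eq_sum_range_succ_mk]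
  simp only [PowerSeries.coeff_mk]
  cases n with
  | zero => simp [sqrtCoeff, ha]
  | succ n =>
    rw [Finset.sum_range_succ, Finset.sum_range_succ']
    simp only [Nat.sub_self, Nat.sub_zero, Nat.succ_sub_succ_eq_sub]
    rw [show sqrtCoeff a 0 = 1 by rw [sqrtCoeff], one_mul, mul_one, sqrtCoeff]
    rw [Fin.sum_univ_eq_sum_range (fun i => sqrtCoeff a (i + 1) * sqrtCoeff a (n - i))]
    ring

end FLTAgent.Isog

/-! ### A copy of the field of Laurent series with the constant algebra structure -/

namespace FLTAgent.Isog

/-- The field of Laurent series, with `K` acting through constants. -/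
def LSer (K : Type*) [Field K] := LaurentSeries K

variable {K : Type*} [Field K]

instance : Field (LSer K) := inferInstanceAs (Field (LaurentSeries K))

/-- The identity map from Laurent series. -/
def toLSer : LaurentSeries K ≃+* LSer K := RingEquiv.refl (LaurentSeries K)

instance : Algebra K (LSer K) :=
  ((toLSer (K := K)).toRingHom.comp (HahnSeries.C : K →+* LaurentSeries K)).toAlgebra

theorem algebraMap_LSer (c : K) : algebraMap K (LSer K) c = toLSer (HahnSeries.C c) := rfl

instance [CharZero K] : CharZero (LSer K) :=
  charZero_of_injective_algebraMap (algebraMap K (LSer K)).injective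

variable (K) in
/-- The valuation ring `K⟦s⟧` of `K⸨s⸩`. -/
def serRing : ValuationSubring (LSer K) :=
  ((Valued.v : Valuation (LaurentSeries K) _).valuationSubring).comap
    (toLSer (K := K)).symm.toRingHom

theorem mem_serRing_iff {f : LSer K} :
    f ∈ serRing K ↔ ∃ p : PowerSeries K, (p : LaurentSeries K) = toLSer.symm f := by
  rw [serRing, ValuationSubring.mem_comap, Valuation.mem_valuationSubring_iff]
  exact LaurentSeries.val_le_one_iff_eq_coe K _

theorem const_mem_serRing (c : K) : algebraMap K (LSer K) c ∈ serRing K :=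
  mem_serRing_iff.mpr ⟨PowerSeries.C c, by
    rw [algebraMap_LSer, RingEquiv.symm_apply_apply, PowerSeries.coe_C]⟩

/-- The derivative as a function. -/
def dFun (f : LSer K) : LSer K := toLSer (LaurentSeries.derivative K (toLSer.symm f))

theorem dFun_const (c : K) : dFun (algebraMap K (LSer K) c) = 0 := by
  refine (map_eq_zero_iff _ toLSer.injective).mpr (HahnSeries.ext ?_)
  funext n
  rw [derivative_coeff, algebraMap_LSer, RingEquiv.symm_apply_apply, HahnSeries.C_apply]
  rcases eq_or_ne (n + 1) 0 with h | h
  · simp [h]
  · simp [h]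

theorem dFun_mul (f g : LSer K) : dFun (f * g) = f * dFun g + g * dFun f := by
  simp only [dFun, map_mul, derivative_mul, map_add, RingEquiv.apply_symm_apply]

variable (K) in
/-- The derivation `d/ds`. -/
def dLS : Derivation K (LSer K) (LSer K) :=
  Derivation.mk'
    { toFun := dFun
      map_add' := fun f g => by simp only [dFun, map_add]
      map_smul' := fun c f => by
        simp only [Algebra.smul_def, RingHom.id_apply]
        rw [dFun_mul, dFun_const, mul_zero, add_zero] }
    fun f g => dFun_mul f g

theorem dLS_apply (f : LSer K) : dLS K f = dFun f := rfl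

theorem eq_const_of_dLS_eq_zero [CharZero K] {f : LSer K} (h : dLS K f = 0) :
    ∃ c : K, f = algebraMap K (LSer K) c := by
  refine ⟨(toLSer.symm f).coeff 0, toLSer.symm.injective ?_⟩
  rw [algebraMap_LSer, RingEquiv.symm_apply_apply]
  rw [dLS_apply, dFun, map_eq_zero_iff _ toLSer.injective] at h
  refine HahnSeries.ext ?_
  funext n
  rcases eq_or_ne n 0 with rfl | hn
  · simp
  · have := congrArg (fun g : LaurentSeries K => g.coeff (n - 1)) h
    simp only [derivative_coeff, HahnSeries.coeff_zero, sub_add_cancel, mul_eq_zero,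
      Int.cast_eq_zero, hn, false_or] at this
    simp [this, hn]

variable {L : Type*} [Field L] [Algebra K L] (W : Affine K)

@[simp] theorem bc_a₁ : (W⁄L).a₁ = algebraMap K L W.a₁ := rfl
@[simp] theorem bc_a₂ : (W⁄L).a₂ = algebraMap K L W.a₂ := rfl
@[simp] theorem bc_a₃ : (W⁄L).a₃ = algebraMap K L W.a₃ := rfl
@[simp] theorem bc_a₄ : (W⁄L).a₄ = algebraMap K L W.a₄ := rfl
@[simp] theorem bc_a₆ : (W⁄L).a₆ = algebraMap K L W.a₆ := rfl

instance bc_isElliptic [W.IsElliptic] : (W⁄L).IsElliptic :=
  inferInstanceAs (W.map (algebraMap K L)).IsElliptic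

variable [CharZero K]

variable (K) in
/-- The abscissa of the point in general position. -/
def genX : LSer K := toLSer (HahnSeries.single (-2) 1)

omit [CharZero K] in
theorem genX_not_mem : genX K ∉ serRing K := by
  rw [mem_serRing_iff, genX, RingEquiv.symm_apply_apply]
  rintro ⟨p, hp⟩
  have := congrArg (fun f : LaurentSeries K => f.coeff (-2)) hp
  simp [PowerSeries.coeff_coe] at this

theorem dLS_genX_ne_zero : dLS K (genX K) ≠ 0 := by
  rw [dLS_apply, dFun, genX, RingEquiv.symm_apply_apply, Ne, map_eq_zero_iff _ toLSer.injective]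
  intro h
  have := congrArg (fun f : LaurentSeries K => f.coeff (-3)) h
  simp only [derivative_coeff, HahnSeries.coeff_zero] at this
  norm_num at this

theorem exists_genY (W : Affine K) :
    ∃ y : LSer K, (W⁄(LSer K)).Equation (genX K) y := by
  obtain ⟨S, hS, -⟩ := exists_sq_eq (1 + PowerSeries.C (W.b₂ / 4) * PowerSeries.X ^ 2 +
    PowerSeries.C (W.b₄ / 2) * PowerSeries.X ^ 4 + PowerSeries.C (W.b₆ / 4) * PowerSeries.X ^ 6)
    (by simp)
  set φ : PowerSeries K →+* LSer K :=
    (toLSer (K := K)).toRingHom.comp (HahnSeries.ofPowerSeries ℤ K) with hφ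
  set s : LSer K := toLSer (HahnSeries.single 1 1) with hs
  have hC : ∀ c, φ (PowerSeries.C c) = algebraMap K (LSer K) c := fun c => by
    rw [algebraMap_LSer, ← PowerSeries.coe_C]; rfl
  have hX : φ PowerSeries.X = s := by rw [hs, ← PowerSeries.coe_X]; rfl
  have hSL : φ S ^ 2 = 1 + algebraMap K (LSer K) (W.b₂ / 4) * s ^ 2 +
      algebraMap K (LSer K) (W.b₄ / 2) * s ^ 4 + algebraMap K (LSer K) (W.b₆ / 4) * s ^ 6 := by
    have := congrArg φ hS
    simpa only [map_pow, map_add, map_mul, map_one, hC, hX] using this
  set i : LSer K := toLSer (HahnSeries.single (-1) 1) with hi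
  have hsi : s * i = 1 := by
    rw [hs, hi, ← map_mul, HahnSeries.single_mul_single]
    norm_num
  have hx : genX K = i ^ 2 := by
    rw [hi, genX, pow_two, ← map_mul, HahnSeries.single_mul_single]
    norm_num
  refine ⟨(2 * i ^ 3 * φ S - (W⁄(LSer K)).a₁ * genX K - (W⁄(LSer K)).a₃) / 2, ?_⟩
  rw [equation_iff]
  simp only [bc_a₁, bc_a₂, bc_a₃, bc_a₄, bc_a₆, hx]
  simp only [WeierstrassCurve.b₂, WeierstrassCurve.b₄, WeierstrassCurve.b₆, map_div₀, map_add,
    map_mul, map_pow, map_ofNat] at hSL
  have h2 : s ^ 2 * i ^ 6 = i ^ 4 := by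
    linear_combination (s * i + 1) * i ^ 4 * hsi
  have h4 : s ^ 4 * i ^ 6 = i ^ 2 := by
    linear_combination (s ^ 3 * i ^ 3 + s ^ 2 * i ^ 2 + s * i + 1) * i ^ 2 * hsi
  have h6 : s ^ 6 * i ^ 6 = 1 := by rw [← mul_pow, hsi, one_pow]
  field_simp at hSL ⊢
  linear_combination (i ^ 6 / 2) * hSL +
    (algebraMap K (LSer K) W.a₁ ^ 2 + 4 * algebraMap K (LSer K) W.a₂) * h2 +
    2 * (2 * algebraMap K (LSer K) W.a₄ + algebraMap K (LSer K) W.a₁ * algebraMap K (LSer K) W.a₃)
      * h4 +
    (algebraMap K (LSer K) W.a₃ ^ 2 + 4 * algebraMap K (LSer K) W.a₆) * h6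

/-- The ordinate of the point in general position. -/
def genY (W : Affine K) : LSer K := (exists_genY W).choose

theorem equation_gen (W : Affine K) : (W⁄(LSer K)).Equation (genX K) (genY W) :=
  (exists_genY W).choose_spec

/-- The point in general position. -/
def genPoint (W : Affine K) [W.IsElliptic] : (W⁄(LSer K)).Point :=
  .some (genX K) (genY W) (equation_iff_nonsingular.mp (equation_gen W))

end FLTAgent.Isog
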