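import Fermat.Agent.Isog.VeluDefs
import Fermat.Agent.EllLocal.Torsion

/-!
# Vélu's quotient curve: translation invariance and the defining relation

For a finite subgroup `C` of odd order with abscissae `kerX C`, `vX` is a sum of translates of
the abscissa (`vX_eq_sum`), hence invariant under translation by `C` (`vX_add`). The main
results are `phiPoly_eq_zero` and `velu_relation`: `(vX x, y')` satisfies the cubic of the
quotient curve. Proof: the polynomial `phiPoly` vanishes to high order at every kernel abscissa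
by invariance (tested on the Laurent series point `genPoint` and its translates) and near the
origin, so it is zero for degree reasons.
-/

set_option autoImplicit false

noncomputable section

open Polynomial WeierstrassCurve WeierstrassCurve.Affine
open scoped WeierstrassCurve.Affine

namespace FLTAgent.Isog

variable {K : Type*} [Field K]

instance : DecidableEq (LSer K) := Classical.decEq _

variable [DecidableEq K] {W : Affine K}

/-- The abscissa of a point, `0` at the origin. -/
def xC {L : Type*} [Field L] [Algebra K L] : (W⁄L).Point → L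
  | 0 => 0
  | .some x _ _ => x

section

variable (L : Type*) [Field L] [Algebra K L] [DecidableEq L]

/-- Constant points. -/
abbrev toPt : (W⁄K).Point →+ (W⁄L).Point := Point.baseChange K L

theorem toPt_some {x y : K} (h : (W⁄K).Nonsingular x y) :
    ∃ h', toPt L (Point.some x y h) = Point.some (algebraMap K L x) (algebraMap K L y) h' :=
  ⟨_, rfl⟩

theorem toPt_injective : Function.Injective (toPt (W := W) L) := Point.map_injective _

variable {L}

theorem xC_toPt (R : (W⁄K).Point) : xC (toPt L R) = algebraMap K L (xC R) := by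
  cases R with
  | zero => exact (map_zero _).symm
  | some x y h => rfl

theorem xC_neg (P : (W⁄L).Point) : xC (-P) = xC P := by
  cases P <;> rfl

omit [DecidableEq L] in
theorem psiTwo_ne_zero_of_ne_neg {x y : L} {h : (W⁄L).Nonsingular x y}
    (hne : -(Point.some x y h) ≠ Point.some x y h) : psiTwo (W⁄L) x y ≠ 0 := by
  intro h0
  apply hne
  rw [Point.neg_some]
  have e : (W⁄L).negY x y = y := by
    simp only [psiTwo] at h0
    simp only [negY]
    linear_combination -h0
  simp only [e]

theorem eq_or_eq_neg_of_xC_eq {P Q : (W⁄L).Point} (hP : P ≠ 0) (hQ : Q ≠ 0) (h : xC P = xC Q) :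
    P = Q ∨ P = -Q := by
  rcases P with _ | ⟨x₁, y₁, h₁⟩
  · exact absurd rfl hP
  rcases Q with _ | ⟨x₂, y₂, h₂⟩
  · exact absurd rfl hQ
  change x₁ = x₂ at h
  subst h
  rcases Y_eq_of_X_eq h₁.1 h₂.1 rfl with h | h
  · left; subst h; rfl
  · right; rw [Point.neg_some]; subst h; rfl

/-- `x (P + R) + x (P - R) - 2 x (R)`. -/
theorem xC_add_add_xC_sub {x y : L} {r s : K} (h : (W⁄L).Nonsingular x y)
    (hR : (W⁄K).Nonsingular r s) (hx : x ≠ algebraMap K L r) :
    xC (Point.some x y h + toPt L (Point.some r s hR)) +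
        xC (Point.some x y h + toPt L (-(Point.some r s hR))) - 2 * algebraMap K L r =
      algebraMap K L (tR W r) * (x - algebraMap K L r)⁻¹ +
        algebraMap K L (uR W r) * (x - algebraMap K L r)⁻¹ ^ 2 := by
  obtain ⟨h₁, e₁⟩ := toPt_some L hR
  rw [map_neg, e₁, Point.neg_some, Point.add_of_X_ne hx, Point.add_of_X_ne hx]
  have hd : x - algebraMap K L r ≠ 0 := sub_ne_zero.mpr hx
  have eP := ((W⁄L).equation_iff _ _).mp h.1
  have eR := ((W⁄L).equation_iff _ _).mp h₁.1
  show (W⁄L).addX _ _ _ + (W⁄L).addX _ _ _ - _ = _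
  rw [slope_of_X_ne hx, slope_of_X_ne hx]
  simp only [addX, negY, tR, uR, bc_a₁, bc_a₂, bc_a₃, bc_a₄, bc_a₆, WeierstrassCurve.b₂,
    WeierstrassCurve.b₄, WeierstrassCurve.b₆, map_add, map_mul, map_pow, map_ofNat] at eP eR ⊢
  field_simp
  linear_combination 2 * eP + 2 * eR

end

variable (C : AddSubgroup (W⁄K).Point) [Finite C]

/-- The subgroup as a finset. -/
def kerFin : Finset (W⁄K).Point := (C : Set (W⁄K).Point).toFinite.toFinset

theorem mem_kerFin {R : (W⁄K).Point} : R ∈ kerFin C ↔ R ∈ C := by simp [kerFin]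

/-- The abscissae of the nonzero points of the subgroup. -/
def kerX : Finset K := ((kerFin C).erase 0).image xC

theorem mem_kerX {r : K} : r ∈ kerX C ↔ ∃ R ∈ C, R ≠ 0 ∧ xC R = r := by
  simp [kerX, mem_kerFin, and_assoc, and_left_comm]

variable {C} (hC : ∀ P ∈ C, P + P = 0 → P = 0)

include hC in
theorem neg_ne_self {R : (W⁄K).Point} (hR : R ∈ C) (h0 : R ≠ 0) : -R ≠ R := fun e =>
  h0 (hC R hR (by nth_rewrite 1 [← e]; exact neg_add_cancel R))

include hC in
theorem uR_ne_zero {r : K} (hr : r ∈ kerX C) : uR W r ≠ 0 := by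
  obtain ⟨R, hR, h0, rfl⟩ := (mem_kerX C).mp hr
  rcases R with _ | ⟨r, s, h⟩
  · exact absurd rfl h0
  have hne := psiTwo_ne_zero_of_ne_neg (W := W) (L := K) (neg_ne_self hC hR h0)
  have e := psiTwo_sq (W := W) (L := K) h.1
  intro hu
  apply hne
  have hu' : cubicVal W K r = uR W r := by simp [cubicVal, uR]
  rw [hu', show uR W r = 0 from hu] at e
  exact pow_eq_zero_iff two_ne_zero |>.mp e

include hC in
/-- Sums over the nonzero points, paired by opposites. -/
theorem sum_pairs {M : Type*} [AddCommMonoid M] (f : (W⁄K).Point → M) (g : K → M)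
    (hfg : ∀ R ∈ C, R ≠ 0 → f R + f (-R) = g (xC R)) :
    ∑ R ∈ (kerFin C).erase 0, f R = ∑ r ∈ kerX C, g r := by
  rw [kerX]
  symm
  refine Finset.sum_image' _ fun R hR => ?_
  obtain ⟨h0, hRC⟩ := Finset.mem_erase.mp hR
  rw [mem_kerFin] at hRC
  rw [← hfg R hRC h0]
  have hfil : ((kerFin C).erase 0).filter (fun j => xC j = xC R) = {R, -R} := by
    ext j
    simp only [Finset.mem_filter, Finset.mem_erase, mem_kerFin, Finset.mem_insert,
      Finset.mem_singleton]
    constructor
    · rintro ⟨⟨hj0, -⟩, hj⟩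
      exact eq_or_eq_neg_of_xC_eq hj0 h0 hj
    · rintro (rfl | rfl)
      · exact ⟨⟨h0, hRC⟩, rfl⟩
      · exact ⟨⟨neg_ne_zero.mpr h0, C.neg_mem hRC⟩, xC_neg R⟩
  rw [hfil, Finset.sum_pair (neg_ne_self hC hRC h0).symm]

include hC in
theorem two_mul_card_kerX : 2 * (kerX C).card + 1 = Nat.card C := by
  have h := sum_pairs hC (fun _ => 1) (fun _ => 2) (fun _ _ _ => rfl)
  simp only [Finset.sum_const, smul_eq_mul, mul_one] at h
  have hc : (kerFin C).card = Nat.card C := by
    rw [kerFin, ← Set.ncard_eq_toFinset_card (C : Set (W⁄K).Point)]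
    rfl
  have h0 : (0 : (W⁄K).Point) ∈ kerFin C := (mem_kerFin C).mpr C.zero_mem
  rw [Finset.card_erase_of_mem h0, hc] at h
  have := Finset.card_pos.mpr ⟨0, h0⟩
  omega

variable {L : Type*} [Field L] [Algebra K L] [DecidableEq L]

variable (C) in
/-- The point avoids the subgroup. -/
def OffKer (P : (W⁄L).Point) : Prop := ∀ R ∈ C, P ≠ toPt L R

theorem OffKer.add {P : (W⁄L).Point} (h : OffKer C P) {R : (W⁄K).Point} (hR : R ∈ C) :
    OffKer C (P + toPt L R) := fun R' hR' e =>
  h (R' - R) (C.sub_mem hR' hR) (by rw [map_sub, ← e, add_sub_cancel_right])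

theorem OffKer.ne_zero {P : (W⁄L).Point} (h : OffKer C P) : P ≠ 0 := fun e =>
  h 0 C.zero_mem (by rw [e, map_zero])

theorem OffKer.xC_ne {P : (W⁄L).Point} (h : OffKer C P) :
    ∀ r ∈ kerX C, xC P ≠ algebraMap K L r := by
  intro r hr e
  obtain ⟨R, hR, h0, rfl⟩ := (mem_kerX C).mp hr
  have h0' : toPt L R ≠ 0 := fun e' => h0 (toPt_injective L (e'.trans (map_zero _).symm))
  rcases eq_or_eq_neg_of_xC_eq h.ne_zero h0' (e.trans (xC_toPt R).symm) with e' | e'
  · exact h R hR e'
  · exact h (-R) (C.neg_mem hR) (by rw [map_neg, e'])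

include hC in
theorem vX_eq_sum {P : (W⁄L).Point} (h : OffKer C P) :
    vX W (kerX C) L (xC P) =
      ∑ R ∈ kerFin C, (xC (P + toPt L R) - algebraMap K L (xC R)) := by
  have h0 : (0 : (W⁄K).Point) ∈ kerFin C := (mem_kerFin C).mpr C.zero_mem
  rw [← Finset.add_sum_erase _ _ h0]
  have e0 : xC (P + toPt L (0 : (W⁄K).Point)) - algebraMap K L (xC (0 : (W⁄K).Point)) = xC P := by
    rw [map_zero, add_zero]
    show xC P - algebraMap K L 0 = xC P
    rw [map_zero, sub_zero]
  rw [e0, vX]
  refine congrArg _ (sum_pairs hC _ _ fun R hR hR0 => ?_).symm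
  rcases R with _ | ⟨r, s, hrs⟩
  · exact absurd rfl hR0
  rcases P with _ | ⟨x, y, hxy⟩
  · exact absurd rfl h.ne_zero
  have hx : x ≠ algebraMap K L r := h.xC_ne r ((mem_kerX C).mpr ⟨_, hR, hR0, rfl⟩)
  rw [xC_neg]
  show _ = algebraMap K L (tR W r) * (x - algebraMap K L r)⁻¹ +
    algebraMap K L (uR W r) * (x - algebraMap K L r)⁻¹ ^ 2
  rw [← xC_add_add_xC_sub hxy hrs hx]
  show _ - algebraMap K L r + (_ - algebraMap K L r) = _
  ring

include hC in
/-- Translation invariance of the abscissa. -/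
theorem vX_add {P : (W⁄L).Point} (h : OffKer C P) {R : (W⁄K).Point} (hR : R ∈ C) :
    vX W (kerX C) L (xC (P + toPt L R)) = vX W (kerX C) L (xC P) := by
  rw [vX_eq_sum hC (h.add hR), vX_eq_sum hC h, Finset.sum_sub_distrib, Finset.sum_sub_distrib]
  congr 1
  refine Finset.sum_nbij' (fun Q => R + Q) (fun Q => Q - R) ?_ ?_ ?_ ?_ ?_
  · intro Q hQ; simp only [mem_kerFin] at hQ ⊢; exact C.add_mem hR hQ
  · intro Q hQ; simp only [mem_kerFin] at hQ ⊢; exact C.sub_mem hQ hR
  · intro Q _; exact add_sub_cancel_left R Q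
  · intro Q _; exact add_sub_cancel R Q
  · intro Q _; rw [map_add, add_assoc]

/-! ### Points over a valued extension -/

section Reduction

variable (A : ValuationSubring L) (hA : ∀ c : K, algebraMap K L c ∈ A)

/-- Constants in the valuation ring. -/
def constHom : K →+* A := (algebraMap K L).codRestrict A.toSubring hA

variable (W) in
/-- The constant model. -/
abbrev constModel : WeierstrassCurve A := W.map (constHom A hA)

theorem genCurve_constModel : EllLocal.genCurve A (constModel W A hA) = (W⁄L) := rfl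

/-- `T` reduces to the constant point `T₀`. -/
def Reduces (T : (W⁄L).Point) (T₀ : (W⁄K).Point) : Prop :=
  EllLocal.InE1 (W₀ := constModel W A hA) (T - toPt L T₀)

variable {A hA}

theorem Reduces.zero_iff {T : (W⁄L).Point} :
    Reduces A hA T 0 ↔ T = 0 ∨ xC T ∉ A := by
  rw [Reduces, map_zero, sub_zero]
  cases T with
  | zero => exact iff_of_true trivial (Or.inl rfl)
  | some x y h => exact ⟨fun h' => Or.inr h', fun h' => h'.resolve_left (Point.some_ne_zero h)⟩

theorem Reduces.of_const (T₀ : (W⁄K).Point) : Reduces A hA (toPt L T₀) T₀ := by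
  rw [Reduces, sub_self]
  trivial

theorem Reduces.add {T U : (W⁄L).Point} {T₀ U₀ : (W⁄K).Point} (h : Reduces A hA T T₀)
    (h' : Reduces A hA U U₀) : Reduces A hA (T + U) (T₀ + U₀) := by
  have := EllLocal.InE1.add h h'
  rw [Reduces, map_add, add_sub_add_comm]
  exact this

theorem Reduces.neg {T : (W⁄L).Point} {T₀ : (W⁄K).Point} (h : Reduces A hA T T₀) :
    Reduces A hA (-T) (-T₀) := by
  have := EllLocal.InE1.neg h
  rw [Reduces, map_neg, ← neg_sub' T (toPt L T₀)]
  exact this

theorem Reduces.unique {T₀ U₀ : (W⁄K).Point} {T : (W⁄L).Point} (h : Reduces A hA T T₀)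
    (h' : Reduces A hA T U₀) : T₀ = U₀ := by
  have h2 := Reduces.add h h'.neg
  rw [add_neg_cancel] at h2
  by_contra hne
  have h3 := h2.neg
  rw [neg_zero, Reduces, zero_sub, map_neg, neg_neg] at h3
  generalize hV : T₀ + -U₀ = V at h3
  rcases V with _ | ⟨r, s, hrs⟩
  · exact hne (add_neg_eq_zero.mp hV)
  · exact h3 (hA r)

/-- A point reducing to an affine constant point has residual coordinates those constants. -/
theorem Reduces.coords {T : (W⁄L).Point} {r s : K} {hrs : (W⁄K).Nonsingular r s}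
    (h : Reduces A hA T (Point.some r s hrs)) :
    ∃ (a b : A) (hn : (W⁄L).Nonsingular (a : L) (b : L)), T = Point.some (a : L) (b : L) hn ∧
      IsLocalRing.residue A a = IsLocalRing.residue A (constHom A hA r) ∧
      IsLocalRing.residue A b = IsLocalRing.residue A (constHom A hA s) := by
  obtain ⟨h', e⟩ := toPt_some L hrs
  have hl : EllLocal.IsLift (W₀ := constModel W A hA) (toPt L (Point.some r s hrs))
      (constHom A hA r) (constHom A hA s) := ⟨h', e⟩
  obtain ⟨a, b, ⟨hn, hab⟩, ha, hb⟩ := EllLocal.lift_add_inE1 hl h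
  exact ⟨a, b, hn, (add_sub_cancel (toPt L (Point.some r s hrs)) T).symm.trans hab, ha, hb⟩

end Reduction

/-! ### The defining relation -/

variable [CharZero K]

omit [DecidableEq L] in
theorem phi_small (S : Finset K) {A : ValuationSubring L} (hA : ∀ c : K, algebraMap K L c ∈ A)
    {x : L} (hx : x ∉ A) :
    A.valuation (cubicVal W L x * vDX W S L x ^ 2 -
      cubicVal (veluCurve W S) L (vX W S L x)) < 1 := by
  have hx0 : x ≠ 0 := fun h => hx (h ▸ A.zero_mem)
  have hz : x⁻¹ ∈ A := (A.mem_or_inv_mem x).resolve_left hx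
  have hvz : A.valuation x⁻¹ < 1 := by
    rw [map_inv₀]
    exact inv_lt_one_of_one_lt₀ (not_le.mp fun h => hx (A.mem_of_valuation_le_one x h))
  obtain ⟨α, β, hX, hD⟩ := vX_expansion W S hA hx
  let z : A := ⟨x⁻¹, hz⟩
  let t : A := ⟨_, hA (veluT W S)⟩
  let w : A := ⟨_, hA (veluW W S)⟩
  let b₂ : A := ⟨_, hA W.b₂⟩
  let b₄ : A := ⟨_, hA W.b₄⟩
  let b₆ : A := ⟨_, hA W.b₆⟩
  let q : A := 
    8 * β - 12 * α - 6 * w * b₂ - 6 * t * b₄ + 12 * t ^ 2 + 2 * z * b₂ * β - 2 * z * b₂ * α - 10 * z * w * b₄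
    - 2 * z * t * b₆ + 12 * z * t * w + 4 * z ^ 2 * b₄ * β - 2 * z ^ 2 * b₄ * α - 4 * z ^ 2 * w * b₆
    + 4 * z ^ 2 * w ^ 2 - 8 * z ^ 2 * t * β - 4 * z ^ 2 * t * α + 2 * z ^ 2 * t * w * b₂ + 2 * z ^ 2 * t ^ 2 * b₄
    - 4 * z ^ 2 * t ^ 3 + 2 * z ^ 3 * b₆ * β - 16 * z ^ 3 * w * β - 24 * z ^ 3 * w * α + 3 * z ^ 3 * w ^ 2 * b₂
    - 2 * z ^ 3 * t * b₂ * β - 2 * z ^ 3 * t * b₂ * α + 8 * z ^ 3 * t * w * b₄ + z ^ 3 * t ^ 2 * b₆
    - 12 * z ^ 3 * t ^ 2 * w + 4 * z ^ 4 * β ^ 2 - 12 * z ^ 4 * α ^ 2 - 4 * z ^ 4 * w * b₂ * β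
    - 2 * z ^ 4 * w * b₂ * α + 8 * z ^ 4 * w ^ 2 * b₄ - 4 * z ^ 4 * t * b₄ * β + 4 * z ^ 4 * t * w * b₆
    - 12 * z ^ 4 * t * w ^ 2 - 12 * z ^ 4 * t ^ 2 * α + z ^ 5 * b₂ * β ^ 2 - z ^ 5 * b₂ * α ^ 2
    - 8 * z ^ 5 * w * b₄ * β + 4 * z ^ 5 * w ^ 2 * b₆ - 4 * z ^ 5 * w ^ 3 - 2 * z ^ 5 * t * b₆ * β
    - 24 * z ^ 5 * t * w * α + 2 * z ^ 6 * b₄ * β ^ 2 - 4 * z ^ 6 * w * b₆ * β - 12 * z ^ 6 * w ^ 2 * α
    - 12 * z ^ 6 * t * α ^ 2 + z ^ 7 * b₆ * β ^ 2 - 12 * z ^ 7 * w * α ^ 2 - 4 * z ^ 8 * α ^ 3
  have hq : cubicVal W L x * vDX W S L x ^ 2 - cubicVal (veluCurve W S) L (vX W S L x) =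
      x⁻¹ * (q : L) := by
    rw [hX, hD]
    rw [show (q : L) = A.subtype q from rfl]
    simp only [cubicVal, veluCurve_b₂, veluCurve_b₄, veluCurve_b₆, q, map_sub, map_add, map_mul,
      map_pow, map_ofNat]
    simp only [z, t, w, b₂, b₄, b₆, ValuationSubring.subtype_apply]
    field_simp
    ring
  rw [hq, map_mul]
  exact lt_of_le_of_lt (mul_le_of_le_one_right' (A.valuation_le_one q)) hvz

variable [W.IsElliptic]

theorem genPoint_reduces :
    Reduces (serRing K) const_mem_serRing (genPoint W) 0 :=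
  Reduces.zero_iff.mpr (Or.inr genX_not_mem)

theorem genPoint_add_offKer (T₀ : (W⁄K).Point) :
    OffKer C (genPoint W + toPt (LSer K) T₀) := by
  intro R _ e
  have e' : genPoint W = toPt (LSer K) (R - T₀) := by
    rw [map_sub, ← e, add_sub_cancel_right]
  have := congrArg xC e'
  rw [xC_toPt] at this
  exact genX_ne_const _ this

theorem dLS_xC_add_ne_zero [IsAlgClosed K] (T₀ : (W⁄K).Point) :
    dLS K (xC (genPoint W + toPt (LSer K) T₀)) ≠ 0 := by
  set P := genPoint W + toPt (LSer K) T₀ with hP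
  have hconst : omega (dLS K) (toPt (LSer K) T₀) = 0 := by
    cases T₀ with
    | zero => rfl
    | some r s h =>
      show dLS K (algebraMap K (LSer K) r) / _ = 0
      rw [Derivation.map_algebraMap, zero_div]
  have hω : omega (dLS K) P = omega (dLS K) (genPoint W) := by
    rw [hP, omega_add, hconst, add_zero]
  intro h0
  have hgen : omega (dLS K) (genPoint W) = 0 := by
    rw [← hω]
    rcases P with _ | ⟨x, y, h⟩
    · rfl
    · show dLS K x / _ = 0
      rw [show dLS K x = 0 from h0, zero_div]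
  obtain ⟨e, -⟩ := deriv_eq_omega (dLS K) (equation_iff_nonsingular.mp (equation_gen W))
  rw [show omega (dLS K) (.some _ _ (equation_iff_nonsingular.mp (equation_gen W))) = 0 from hgen,
    mul_zero] at e
  exact dLS_genX_ne_zero e

include hC in
theorem cubic_mul_vDX_sq_invariant [IsAlgClosed K] {R : (W⁄K).Point} (hR : R ∈ C) :
    cubicVal W (LSer K) (xC (genPoint W + toPt (LSer K) R)) *
        vDX W (kerX C) (LSer K) (xC (genPoint W + toPt (LSer K) R)) ^ 2 =
      cubicVal W (LSer K) (genX K) * vDX W (kerX C) (LSer K) (genX K) ^ 2 := by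
  set P := genPoint W + toPt (LSer K) R with hP
  have h0 := genPoint_add_offKer (C := C) (0 : (W⁄K).Point)
  rw [map_zero, add_zero] at h0
  have hinv := congrArg (dLS K) (vX_add hC h0 hR)
  rw [derivation_vX, derivation_vX, ← hP] at hinv
  have hω : omega (dLS K) P = omega (dLS K) (genPoint W) := by
    rw [hP, omega_add]
    have : omega (dLS K) (toPt (LSer K) R) = 0 := by
      cases R with
      | zero => rfl
      | some r s h =>
        show dLS K (algebraMap K (LSer K) r) / _ = 0
        rw [Derivation.map_algebraMap, zero_div]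
    rw [this, add_zero]
  have hd := dLS_xC_add_ne_zero (W := W) R
  rw [← hP] at hd
  clear_value P
  rcases P with _ | ⟨x, y, h⟩
  · exact absurd (map_zero (dLS K)) hd
  obtain ⟨e₁, -⟩ := deriv_eq_omega (dLS K) h
  obtain ⟨e₀, -⟩ := deriv_eq_omega (dLS K) (equation_iff_nonsingular.mp (equation_gen W))
  change dLS K x ≠ 0 at hd
  change vDX W (kerX C) (LSer K) x * dLS K x = vDX W (kerX C) (LSer K) (genX K) * dLS K (genX K)
    at hinv
  rw [e₁, e₀, hω] at hinv
  have hne : omega (dLS K) (genPoint W) ≠ 0 := fun hz => hd (by rw [e₁, hω, hz, mul_zero])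
  have hmain : psiTwo (W⁄(LSer K)) x y * vDX W (kerX C) (LSer K) x =
      psiTwo (W⁄(LSer K)) (genX K) (genY W) * vDX W (kerX C) (LSer K) (genX K) := by
    apply mul_right_cancel₀ hne
    have : omega (dLS K) (.some _ _ (equation_iff_nonsingular.mp (equation_gen W))) =
        omega (dLS K) (genPoint W) := rfl
    rw [this] at hinv
    linear_combination hinv
  show cubicVal W (LSer K) x * vDX W (kerX C) (LSer K) x ^ 2 = _
  rw [← psiTwo_sq h.1, ← psiTwo_sq (equation_gen W), ← mul_pow, ← mul_pow, hmain]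

include hC in
/-- **The defining relation of the quotient curve.** -/
theorem phiPoly_eq_zero [IsAlgClosed K] : phiPoly W (kerX C) = 0 := by
  set S := kerX C with hS
  set A := serRing K with hA'
  have hA : ∀ c : K, algebraMap K (LSer K) c ∈ A := const_mem_serRing
  have h00 := genPoint_add_offKer (C := C) (0 : (W⁄K).Point)
  rw [map_zero, add_zero] at h00
  have hdvd : ∀ r ∈ S, (X - Polynomial.C r) ^ 6 ∣ phiPoly W S := by
    intro r hr
    obtain ⟨R, hR, hR0, rfl⟩ := (mem_kerX C).mp hr
    rcases R with _ | ⟨r, s, hrs⟩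
    · exact absurd rfl hR0
    show (X - Polynomial.C r) ^ 6 ∣ phiPoly W S
    set P := genPoint W + toPt (LSer K) (Point.some r s hrs) with hP
    have hred : Reduces A hA P (Point.some r s hrs) := by
      have := Reduces.add (genPoint_reduces (W := W)) (Reduces.of_const (Point.some r s hrs))
      rwa [zero_add] at this
    obtain ⟨a, b, hn, hPe, ha, -⟩ := hred.coords
    have hoff : OffKer C P := h00.add hR
    have hxS := hoff.xC_ne
    have hxa : xC P = (a : LSer K) := by rw [hPe]; rfl
    have hval := aeval_phiPoly W (S := S) hxS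
    have hinv1 := cubic_mul_vDX_sq_invariant hC hR
    rw [← hS, ← hP] at hinv1
    have hinv2 := vX_add hC h00 hR
    rw [← hS, ← hP] at hinv2
    rw [hinv1, hinv2] at hval
    have hsmall := phi_small (W := W) S hA genX_not_mem
    change A.valuation (cubicVal W (LSer K) (genX K) * vDX W S (LSer K) (genX K) ^ 2 -
      cubicVal (veluCurve W S) (LSer K) (vX W S (LSer K) (xC (genPoint W)))) < 1 at hsmall
    by_contra hnd
    have hne : phiPoly W S ≠ 0 := fun h0 => hnd (h0 ▸ dvd_zero _)
    obtain ⟨q, hq, hqr⟩ := exists_eq_pow_rootMultiplicity_mul_and_not_dvd _ hne r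
    rw [dvd_iff_isRoot, IsRoot.def] at hqr
    have hm : rootMultiplicity r (phiPoly W S) < 6 := by
      by_contra hle
      exact hnd (hq ▸ dvd_mul_of_dvd_left (pow_dvd_pow _ (by omega)) q)
    -- residues
    have hres : ∀ f : K[X], ∃ fa : A, (fa : LSer K) = aeval (xC P) f ∧
        IsLocalRing.residue A fa = IsLocalRing.residue A (constHom A hA (f.eval r)) := by
      intro f
      refine ⟨f.eval₂ (constHom A hA) a, ?_, ?_⟩
      · rw [hxa, aeval_def, show ((f.eval₂ (constHom A hA) a : A) : LSer K) =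
          A.subtype (f.eval₂ (constHom A hA) a) from rfl, hom_eval₂]
        rfl
      · rw [hom_eval₂, ha, ← hom_eval₂, Polynomial.eval₂_at_apply]
    have hunit : ∀ f : K[X], f.eval r ≠ 0 → A.valuation (aeval (xC P) f) = 1 := by
      intro f hf
      obtain ⟨fa, hfa, hfr⟩ := hres f
      rw [← hfa, ← A.valuation_eq_one_iff]
      apply (IsLocalRing.residue_ne_zero_iff_isUnit fa).mp
      rw [hfr]
      exact (_root_.map_ne_zero ((IsLocalRing.residue A).comp (constHom A hA))).mpr hf
    have hlt : A.valuation (xC P - algebraMap K (LSer K) r) < 1 := by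
      have : IsLocalRing.residue A (a - constHom A hA r) = 0 := by rw [map_sub, ha, sub_self]
      have := EllLocal.valuation_lt_of_residue_eq_zero A this
      rw [hxa]
      exact this
    have hpos : 0 < A.valuation (xC P - algebraMap K (LSer K) r) :=
      zero_lt_iff.mpr ((_root_.map_ne_zero A.valuation).mpr (sub_ne_zero.mpr (hxS r hr)))
    have hh : A.valuation (aeval (xC P) (hPoly S)) =
        A.valuation (xC P - algebraMap K (LSer K) r) := by
      have hr' : r ∈ S := hr
      rw [hPoly_eq_mul_erase S hr', map_mul, map_mul, hunit (hPoly (S.erase r)) ?_, mul_one]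
      · simp
      · simp only [hPoly, eval_prod, eval_sub, eval_X, eval_C]
        exact Finset.prod_ne_zero_iff.mpr fun j hj =>
          sub_ne_zero.mpr (Finset.mem_erase.mp hj).1.symm
    have hl : A.valuation (aeval (xC P) (phiPoly W S)) =
        A.valuation (xC P - algebraMap K (LSer K) r) ^ rootMultiplicity r (phiPoly W S) := by
      conv_lhs => rw [hq]
      rw [map_mul, map_mul, hunit q hqr, mul_one, map_pow, map_pow]
      simp
    rw [hval, map_mul, map_pow, hh] at hl
    have h6 : A.valuation (xC P - algebraMap K (LSer K) r) ^ 6 <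
        A.valuation (xC P - algebraMap K (LSer K) r) ^ rootMultiplicity r (phiPoly W S) :=
      pow_lt_pow_right_of_lt_one₀ hpos hlt hm
    rw [← hl] at h6
    exact absurd (lt_of_lt_of_le h6 (mul_le_of_le_one_right' hsmall.le)) (lt_irrefl _)
  have hall : hPoly S ^ 6 ∣ phiPoly W S := by
    rw [hPoly, ← Finset.prod_pow]
    refine Finset.prod_dvd_of_coprime (fun i _ j _ hij => ?_) hdvd
    exact ((pairwise_coprime_X_sub_C Function.injective_id) hij).pow
  obtain ⟨M, hM⟩ := hall
  have hgS : ∀ r ∈ S, genX K ≠ algebraMap K (LSer K) r := fun r _ => genX_ne_const r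
  have hv : A.valuation (aeval (genX K) M) < 1 := by
    have hval := aeval_phiPoly W (S := S) hgS
    rw [hM, map_mul, map_pow] at hval
    rw [mul_left_cancel₀ (pow_ne_zero 6 (aeval_hPoly_ne_zero hgS)) hval]
    exact phi_small (W := W) S hA genX_not_mem
  have key : ∀ (n : ℕ) (f : K[X]), f.natDegree = n → f ≠ 0 →
      1 ≤ A.valuation (aeval (genX K) f) := by
    intro n
    induction n with
    | zero =>
      intro f hn hf
      obtain ⟨c, rfl⟩ : ∃ c, f = Polynomial.C c := ⟨_, eq_C_of_natDegree_eq_zero hn⟩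
      have hc : c ≠ 0 := fun h => hf (by rw [h, map_zero])
      rw [aeval_C]
      have h1 := A.valuation_le_one ⟨_, hA c⁻¹⟩
      rw [show ((⟨_, hA c⁻¹⟩ : A) : LSer K) = (algebraMap K (LSer K) c)⁻¹ from map_inv₀ _ c,
        map_inv₀] at h1
      exact (inv_le_one₀ (zero_lt_iff.mpr ((_root_.map_ne_zero A.valuation).mpr
        ((_root_.map_ne_zero _).mpr hc)))).mp h1
    | succ n ih =>
      intro f hn _
      have hd : f.divX.natDegree = n := by rw [natDegree_divX_eq_natDegree_tsub_one, hn]; rfl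
      have hd0 : f.divX ≠ 0 := by
        intro h0
        have := Polynomial.X_mul_divX_add f
        rw [h0, mul_zero, zero_add] at this
        rw [← this, natDegree_C] at hn
        omega
      have h1 := ih f.divX hd hd0
      have hx : 1 < A.valuation (genX K) := not_le.mp fun h =>
        genX_not_mem (A.mem_of_valuation_le_one _ h)
      have hbig : 1 < A.valuation (genX K * aeval (genX K) f.divX) := by
        rw [map_mul]
        exact lt_of_lt_of_le hx (le_mul_of_one_le_right' h1)
      conv_rhs => rw [← Polynomial.X_mul_divX_add f, map_add, map_mul, aeval_X, aeval_C]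
      rw [Valuation.map_add_eq_of_lt_left]
      · exact hbig.le
      · exact lt_of_le_of_lt ((A.valuation_le_one_iff _).mpr (hA _)) hbig
  rw [hM]
  by_contra hne
  exact absurd (key _ M rfl (right_ne_zero_of_mul hne)) (not_le.mpr hv)

include hC in
/-- The relation at every abscissa off the kernel. -/
theorem velu_relation [IsAlgClosed K] {x : L} (hx : ∀ r ∈ kerX C, x ≠ algebraMap K L r) :
    cubicVal (veluCurve W (kerX C)) L (vX W (kerX C) L x) =
      cubicVal W L x * vDX W (kerX C) L x ^ 2 := by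
  have h := aeval_phiPoly W hx
  rw [phiPoly_eq_zero hC, map_zero, eq_comm, mul_eq_zero, sub_eq_zero] at h
  exact (h.resolve_left (pow_ne_zero 6 (aeval_hPoly_ne_zero hx))).symm

end FLTAgent.Isog
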