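import Fermat.Agent.Isog.Omega

/-!
# Vélu's quotient curve by a subgroup of odd order: formulas

Definitions for a set `S` of abscissae: Vélu's `t` and `w` (`veluT`, `veluW`), the quotient
curve `veluCurve`, the abscissa map `vX`, its derivative `vDX`, and the numerator polynomials
`hPoly`, `nPoly`, `dPoly`, `phiPoly` of these rational functions, with their evaluation rules
(`aeval_nPoly`, `aeval_phiPoly`) and the behaviour of `vX` near the origin (`vX_expansion`).
-/

set_option autoImplicit false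

noncomputable section

open Polynomial WeierstrassCurve WeierstrassCurve.Affine
open scoped WeierstrassCurve.Affine

namespace FLTAgent.Isog

variable {K : Type*} [Field K] (W : Affine K) (S : Finset K)

/-- `x ↦ 6 x² + b₂ x + b₄`. -/
def tR (r : K) : K := 6 * r ^ 2 + W.b₂ * r + W.b₄

/-- `x ↦ 4 x³ + b₂ x² + 2 b₄ x + b₆`. -/
def uR (r : K) : K := 4 * r ^ 3 + W.b₂ * r ^ 2 + 2 * W.b₄ * r + W.b₆

/-- Vélu's `t`. -/
def veluT : K := ∑ r ∈ S, tR W r

/-- Vélu's `w`. -/
def veluW : K := ∑ r ∈ S, (uR W r + r * tR W r)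

/-- Vélu's quotient curve. -/
def veluCurve : Affine K :=
  ⟨W.a₁, W.a₂, W.a₃, W.a₄ - 5 * veluT W S, W.a₆ - W.b₂ * veluT W S - 7 * veluW W S⟩

theorem veluCurve_b₂ : (veluCurve W S).b₂ = W.b₂ := rfl

theorem veluCurve_b₄ : (veluCurve W S).b₄ = W.b₄ - 10 * veluT W S := by
  simp only [veluCurve, WeierstrassCurve.b₄]; ring

theorem veluCurve_b₆ :
    (veluCurve W S).b₆ = W.b₆ - 4 * W.b₂ * veluT W S - 28 * veluW W S := by
  simp only [veluCurve, WeierstrassCurve.b₆]; ring

theorem veluCurve_c₄ : (veluCurve W S).c₄ = W.c₄ + 240 * veluT W S := by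
  simp only [WeierstrassCurve.c₄, veluCurve_b₂, veluCurve_b₄]; ring

variable (L : Type*) [Field L] [Algebra K L]

local notation "ι" => algebraMap K L

/-- The right side of `(2 y + a₁ x + a₃)² = 4 x³ + b₂ x² + 2 b₄ x + b₆`. -/
def cubicVal (x : L) : L := 4 * x ^ 3 + ι W.b₂ * x ^ 2 + 2 * ι W.b₄ * x + ι W.b₆

/-- The abscissa of the image. -/
def vX (x : L) : L :=
  x + ∑ r ∈ S, (ι (tR W r) * (x - ι r)⁻¹ + ι (uR W r) * (x - ι r)⁻¹ ^ 2)

/-- Its derivative with respect to `x`. -/
def vDX (x : L) : L :=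
  1 + ∑ r ∈ S, (-(ι (tR W r) * (x - ι r)⁻¹ ^ 2) - 2 * ι (uR W r) * (x - ι r)⁻¹ ^ 3)

variable {L} {W}

theorem psiTwo_sq {x y : L} (h : (W⁄L).Equation x y) :
    psiTwo (W⁄L) x y ^ 2 = cubicVal W L x := by
  rw [equation_iff] at h
  simp only [psiTwo, cubicVal, bc_a₁, bc_a₂, bc_a₃, bc_a₄, bc_a₆, WeierstrassCurve.b₂,
    WeierstrassCurve.b₄, WeierstrassCurve.b₆, map_add, map_mul, map_pow, map_ofNat] at h ⊢
  linear_combination 4 * h

theorem derivation_vX (d : Derivation K L L) (x : L) :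
    d (vX W S L x) = vDX W S L x * d x := by
  simp only [vX, vDX, map_add, map_sum, Derivation.leibniz, Derivation.leibniz_pow,
    Derivation.leibniz_inv, map_sub, Derivation.map_algebraMap, smul_eq_mul, nsmul_eq_mul,
    add_mul, one_mul, Finset.sum_mul]
  refine congrArg _ (Finset.sum_congr rfl fun r _ => ?_)
  push_cast
  ring

variable (W) [DecidableEq K]

/-- The polynomial with simple roots at the abscissae of the kernel. -/
def hPoly : K[X] := ∏ r ∈ S, (X - C r)

/-- The numerator of the abscissa. -/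
def nPoly : K[X] :=
  X * hPoly S ^ 2 +
    ∑ r ∈ S, (C (tR W r) * (X - C r) + C (uR W r)) * (hPoly (S.erase r)) ^ 2

/-- The numerator of the derivative of the abscissa. -/
def dPoly : K[X] :=
  derivative (nPoly W S) * hPoly S - 2 * nPoly W S * derivative (hPoly S)

/-- The numerator of the defining relation of the quotient. -/
def phiPoly : K[X] :=
  (C 4 * X ^ 3 + C W.b₂ * X ^ 2 + C (2 * W.b₄) * X + C W.b₆) * dPoly W S ^ 2 -
    (4 * nPoly W S ^ 3 + C W.b₂ * nPoly W S ^ 2 * hPoly S ^ 2 +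
      C (2 * (veluCurve W S).b₄) * nPoly W S * hPoly S ^ 4 + C (veluCurve W S).b₆ * hPoly S ^ 6)

theorem hPoly_monic : (hPoly S).Monic := monic_prod_of_monic _ _ fun _ _ => monic_X_sub_C _

theorem natDegree_hPoly : (hPoly S).natDegree = S.card := by
  rw [hPoly, natDegree_prod_of_monic _ _ fun _ _ => monic_X_sub_C _]
  simp

theorem hPoly_eq_mul_erase {r : K} (hr : r ∈ S) :
    hPoly S = (X - C r) * hPoly (S.erase r) :=
  (Finset.mul_prod_erase S _ hr).symm

variable {S}

omit [DecidableEq K] in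
theorem aeval_hPoly (x : L) : aeval x (hPoly S) = ∏ r ∈ S, (x - ι r) := by
  simp [hPoly, map_prod]

omit [DecidableEq K] in
theorem aeval_hPoly_ne_zero {x : L} (hx : ∀ r ∈ S, x ≠ ι r) : aeval x (hPoly S) ≠ 0 := by
  rw [aeval_hPoly]
  exact Finset.prod_ne_zero_iff.mpr fun r hr => sub_ne_zero.mpr (hx r hr)

theorem aeval_nPoly {x : L} (hx : ∀ r ∈ S, x ≠ ι r) :
    aeval x (nPoly W S) = vX W S L x * aeval x (hPoly S) ^ 2 := by
  simp only [nPoly, vX, add_mul, Finset.sum_mul, map_add, map_mul, map_pow, map_sum, aeval_X,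
    aeval_C, map_sub]
  refine congrArg _ (Finset.sum_congr rfl fun r hr => ?_)
  have h0 : x - ι r ≠ 0 := sub_ne_zero.mpr (hx r hr)
  rw [hPoly_eq_mul_erase S hr, map_mul, map_sub, aeval_X, aeval_C]
  field_simp

/-- The quotient rule. -/
theorem dPoly_eval_eq (d : Derivation K L L) {x : L} (hd : d x ≠ 0) (hx : ∀ r ∈ S, x ≠ ι r) :
    aeval x (dPoly W S) = vDX W S L x * aeval x (hPoly S) ^ 3 := by
  have e := congrArg d (aeval_nPoly W hx)
  rw [Derivation.map_aeval, Derivation.leibniz, Derivation.leibniz_pow, Derivation.map_aeval,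
    derivation_vX] at e
  simp only [smul_eq_mul, nsmul_eq_mul] at e
  apply mul_right_cancel₀ hd
  simp only [dPoly, map_sub, map_mul, map_ofNat]
  push_cast at e
  linear_combination aeval x (hPoly S) * e -
    2 * aeval x (derivative (hPoly S)) * d x * aeval_nPoly W hx

variable [CharZero K]

omit [DecidableEq K] in
theorem aeval_genX_ne_zero : ∀ (n : ℕ) (p : K[X]), p.natDegree = n → p ≠ 0 →
    aeval (genX K) p ≠ 0 := by
  intro n
  induction n using Nat.strong_induction_on with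
  | _ n IH =>
  intro p hn hp h0
  by_cases hd : derivative p = 0
  · obtain ⟨c, rfl⟩ : ∃ c, p = C c := ⟨_, eq_C_of_derivative_eq_zero hd⟩
    simp only [aeval_C, map_eq_zero] at h0
    exact hp (by rw [h0, map_zero])
  · have hlt : (derivative p).natDegree < n := by
      rw [← hn]
      exact natDegree_derivative_lt (fun h => hd (derivative_of_natDegree_zero h))
    apply IH _ hlt _ rfl hd
    have e := congrArg (dLS K) h0
    rw [Derivation.map_aeval, map_zero, smul_eq_mul, mul_eq_zero] at e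
    exact e.resolve_right dLS_genX_ne_zero

omit [DecidableEq K] in
theorem eq_of_aeval_genX_eq {p q : K[X]} (h : aeval (genX K) p = aeval (genX K) q) : p = q := by
  by_contra hne
  exact aeval_genX_ne_zero _ (p - q) rfl (sub_ne_zero.mpr hne) (by rw [map_sub, h, sub_self])

omit [DecidableEq K] in
theorem genX_ne_const (c : K) : genX K ≠ algebraMap K (LSer K) c := fun h =>
  genX_not_mem (h ▸ const_mem_serRing c)

/-- The derivative numerator, with partial fractions. -/
theorem dPoly_eq :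
    dPoly W S = hPoly S ^ 3 +
      ∑ r ∈ S, (-(C (tR W r) * (X - C r)) - 2 * C (uR W r)) * (hPoly (S.erase r)) ^ 3 := by
  apply eq_of_aeval_genX_eq
  rw [dPoly_eval_eq W (dLS K) dLS_genX_ne_zero fun r _ => genX_ne_const r]
  simp only [vDX, add_mul, one_mul, Finset.sum_mul, map_add, map_pow, map_sum, map_mul, map_sub,
    map_neg, map_ofNat, aeval_X, aeval_C]
  refine congrArg _ (Finset.sum_congr rfl fun r hr => ?_)
  have h0 : genX K - algebraMap K (LSer K) r ≠ 0 := sub_ne_zero.mpr (genX_ne_const r)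
  rw [hPoly_eq_mul_erase S hr, map_mul, map_sub, aeval_X, aeval_C]
  field_simp

theorem aeval_dPoly {x : L} (hx : ∀ r ∈ S, x ≠ ι r) :
    aeval x (dPoly W S) = vDX W S L x * aeval x (hPoly S) ^ 3 := by
  rw [dPoly_eq]
  simp only [vDX, add_mul, one_mul, Finset.sum_mul, map_add, map_pow, map_sum, map_mul, map_sub,
    map_neg, map_ofNat, aeval_X, aeval_C]
  refine congrArg _ (Finset.sum_congr rfl fun r hr => ?_)
  have h0 : x - ι r ≠ 0 := sub_ne_zero.mpr (hx r hr)
  rw [hPoly_eq_mul_erase S hr, map_mul, map_sub, aeval_X, aeval_C]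
  field_simp

theorem aeval_phiPoly {x : L} (hx : ∀ r ∈ S, x ≠ ι r) :
    aeval x (phiPoly W S) = aeval x (hPoly S) ^ 6 *
      (cubicVal W L x * vDX W S L x ^ 2 - cubicVal (veluCurve W S) L (vX W S L x)) := by
  simp only [phiPoly, cubicVal, veluCurve_b₂, map_sub, map_add, map_mul, map_pow, aeval_X,
    aeval_C, map_ofNat, aeval_nPoly W hx, aeval_dPoly W hx]
  ring

/-! ### Behaviour near the origin -/

variable (S)

theorem vX_expansion {A : ValuationSubring L} (hA : ∀ c : K, ι c ∈ A) {x : L} (hx : x ∉ A) :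
    ∃ α β : A,
      vX W S L x = x * (1 + ι (veluT W S) * x⁻¹ ^ 2 + ι (veluW W S) * x⁻¹ ^ 3 +
        x⁻¹ ^ 4 * (α : L)) ∧
      vDX W S L x = 1 - ι (veluT W S) * x⁻¹ ^ 2 - 2 * ι (veluW W S) * x⁻¹ ^ 3 +
        x⁻¹ ^ 4 * (β : L) := by
  have hx0 : x ≠ 0 := fun h => hx (h ▸ A.zero_mem)
  have hz : x⁻¹ ∈ A := (A.mem_or_inv_mem x).resolve_left hx
  have hvz : A.valuation x⁻¹ < 1 := by
    rw [map_inv₀]
    exact inv_lt_one_of_one_lt₀ (not_le.mp fun h => hx (A.mem_of_valuation_le_one x h))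
  have key : ∀ r : K, ∃ i : A, (x - ι r)⁻¹ = x⁻¹ * (i : L) ∧ (1 - ι r * x⁻¹) * (i : L) = 1 := by
    intro r
    have hlt : A.valuation (ι r * x⁻¹) < 1 := by
      rw [map_mul]
      exact lt_of_le_of_lt (mul_le_of_le_one_left' ((A.valuation_le_one_iff _).mpr (hA r))) hvz
    have hval : A.valuation (1 - ι r * x⁻¹) = 1 := by
      rw [Valuation.map_sub_eq_of_lt_left, map_one]
      rwa [map_one]
    have hne : 1 - ι r * x⁻¹ ≠ 0 := fun h => by rw [h, map_zero] at hval; exact zero_ne_one hval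
    have hmem : (1 - ι r * x⁻¹)⁻¹ ∈ A := by
      apply A.mem_of_valuation_le_one
      rw [map_inv₀, hval, inv_one]
    refine ⟨⟨_, hmem⟩, ?_, mul_inv_cancel₀ hne⟩
    rw [← mul_inv, mul_sub, mul_one, mul_comm x, mul_assoc, inv_mul_cancel₀ hx0, mul_one]
  choose i hi hi1 using key
  refine ⟨∑ r ∈ S, (⟨_, hA (tR W r)⟩ * ⟨_, hA r⟩ ^ 2 * i r +
      ⟨_, hA (uR W r)⟩ * ⟨_, hA r⟩ * i r * (i r + 1)),
    ∑ r ∈ S, (-(⟨_, hA (tR W r)⟩ * ⟨_, hA r⟩ ^ 2 * i r * (i r + 2)) -
      2 * (⟨_, hA (uR W r)⟩ * ⟨_, hA r⟩ * i r * (i r ^ 2 + i r + 1))), ?_, ?_⟩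
  · simp only [vX, veluT, veluW, AddSubmonoidClass.coe_finsetSum, Finset.mul_sum, Finset.sum_mul,
      map_sum, mul_add, mul_one, add_assoc, ← Finset.sum_add_distrib, hi]
    refine congrArg _ (Finset.sum_congr rfl fun r _ => ?_)
    simp only [map_add, map_mul]
    push_cast
    field_simp
    have h1 := hi1 r
    field_simp at h1
    linear_combination (ι (tR W r) * (x + ι r) + ι (uR W r) * ((i r : L) + 1)) * h1
  · simp only [vDX, hi]
    simp only [veluT, veluW, AddSubmonoidClass.coe_finsetSum, Finset.mul_sum, Finset.sum_mul,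
      map_sum, sub_eq_add_neg, ← Finset.sum_neg_distrib, add_assoc, ← Finset.sum_add_distrib]
    refine congrArg _ (Finset.sum_congr rfl fun r _ => ?_)
    simp only [map_add, map_mul]
    push_cast
    simp only [show ((2 : A) : L) = 2 from rfl]
    field_simp
    have h1 := hi1 r
    field_simp at h1
    linear_combination
      (-(ι (tR W r) * (x * ((i r : L) + 1) + ι r * ((i r : L) + 2))) -
        2 * ι (uR W r) * ((i r : L) ^ 2 + (i r : L) + 1)) * h1

end FLTAgent.Isog
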